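import Mathlib

set_option autoImplicit false

namespace Fermat.Agent.S51

open WeierstrassCurve

variable {F : Type*} [Field F]

/-- denominator of the duplication formula (the 2-division polynomial squared) -/
def dblDen (W : WeierstrassCurve F) (x : F) : F :=
  4 * x ^ 3 + W.b₂ * x ^ 2 + 2 * W.b₄ * x + W.b₆

/-- numerator of the duplication formula -/
def dblNum (W : WeierstrassCurve F) (x : F) : F :=
  x ^ 4 - W.b₄ * x ^ 2 - 2 * W.b₆ * x - W.b₈

/-- the 3-division polynomial -/
def triPoly (W : WeierstrassCurve F) (x : F) : F :=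
  3 * x ^ 4 + W.b₂ * x ^ 3 + 3 * W.b₄ * x ^ 2 + 3 * W.b₆ * x + W.b₈

lemma triPoly_eq (W : WeierstrassCurve F) (x : F) :
    triPoly W x = x * dblDen W x - dblNum W x := by
  simp only [triPoly, dblDen, dblNum]; ring

lemma dblDen_eq_sq (W : WeierstrassCurve F) {x y : F} (h : W.toAffine.Equation x y) :
    dblDen W x = (2 * y + W.a₁ * x + W.a₃) ^ 2 := by
  rw [Affine.equation_iff] at h
  simp only [dblDen, b₂, b₄, b₆]
  linear_combination (-4 : F) * h

lemma eq_negY_iff (W : WeierstrassCurve F) (x y : F) :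
    y = W.toAffine.negY x y ↔ 2 * y + W.a₁ * x + W.a₃ = 0 := by
  simp only [Affine.negY]
  constructor <;> intro h <;> linear_combination h

lemma eq_negY_iff_dblDen (W : WeierstrassCurve F) {x y : F} (h : W.toAffine.Equation x y) :
    y = W.toAffine.negY x y ↔ dblDen W x = 0 := by
  rw [eq_negY_iff, dblDen_eq_sq W h]
  exact (pow_eq_zero_iff (two_ne_zero)).symm

variable [DecidableEq F]

lemma addX_self_mul_dblDen (W : WeierstrassCurve F) {x y : F} (h : W.toAffine.Equation x y)
    (hy : y ≠ W.toAffine.negY x y) :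
    W.toAffine.addX x x (W.toAffine.slope x x y y) * dblDen W x = dblNum W x := by
  have hu : y - W.toAffine.negY x y ≠ 0 := sub_ne_zero.mpr hy
  set ℓ := W.toAffine.slope x x y y with hℓdef
  have hℓ : ℓ * (2 * y + W.a₁ * x + W.a₃) = 3 * x ^ 2 + 2 * W.a₂ * x + W.a₄ - W.a₁ * y := by
    rw [hℓdef, Affine.slope_of_Y_ne rfl hy]
    have : y - W.toAffine.negY x y = 2 * y + W.a₁ * x + W.a₃ := by
      simp only [Affine.negY]; ring
    rw [this] at hu ⊢
    rw [div_mul_cancel₀ _ hu]
  rw [dblDen_eq_sq W h]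
  rw [Affine.equation_iff] at h
  simp only [Affine.addX, dblNum, b₄, b₆, b₈]
  linear_combination (-(W.a₁ ^ 2 + 4 * W.a₂ + 8 * x)) * h +
    (ℓ * (2 * y + W.a₁ * x + W.a₃) + (3 * x ^ 2 + 2 * W.a₂ * x + W.a₄ - W.a₁ * y) +
      W.a₁ * (2 * y + W.a₁ * x + W.a₃)) * hℓ

open Affine.Point in
lemma two_nsmul_some_eq_zero_iff (W : WeierstrassCurve F) {x y : F}
    (h : W.toAffine.Nonsingular x y) :
    (2 : ℕ) • (Affine.Point.some x y h) = 0 ↔ dblDen W x = 0 := by
  rw [two_nsmul]
  constructor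
  · intro h0
    by_contra hd
    have hy : y ≠ W.toAffine.negY x y := fun hy => hd ((eq_negY_iff_dblDen W h.1).mp hy)
    rw [Affine.Point.add_self_of_Y_ne hy] at h0
    exact Affine.Point.some_ne_zero _ h0
  · intro hd
    exact Affine.Point.add_self_of_Y_eq ((eq_negY_iff_dblDen W h.1).mpr hd)

lemma two_nsmul_some_of_dblDen_ne (W : WeierstrassCurve F) {x y : F}
    (h : W.toAffine.Nonsingular x y) (hd : dblDen W x ≠ 0) :
    ∃ (x' y' : F) (h' : W.toAffine.Nonsingular x' y'),
      (2 : ℕ) • (Affine.Point.some x y h) = Affine.Point.some x' y' h' ∧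
        x' * dblDen W x = dblNum W x := by
  have hy : y ≠ W.toAffine.negY x y := fun hy => hd ((eq_negY_iff_dblDen W h.1).mp hy)
  exact ⟨_, _, Affine.nonsingular_add h h fun hxy => hy hxy.right,
    by rw [two_nsmul, Affine.Point.add_self_of_Y_ne hy], addX_self_mul_dblDen W h.1 hy⟩

end Fermat.Agent.S51
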