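import Fermat.Agent.S51.Algebra
import Fermat.Prelude.Def_FLTPrelim_Modularity

set_option autoImplicit false

namespace Fermat.Agent.S51

open WeierstrassCurve

lemma int_prime_five : Prime (5 : ℤ) := Int.prime_iff_natAbs_prime.mpr (by norm_num)

/-- arithmetic core of the contradiction -/
lemma five_dvd_both (c D A B' : ℤ) (hA : ¬ (5 : ℤ) ∣ A) (hB : ¬ (5 : ℤ) ∣ B')
    (h : A * c ^ 3 = 5 * B' * D ∨ A * c ^ 3 = 25 * B' * D) : (5 : ℤ) ∣ c ∧ (5 : ℤ) ∣ D := by
  have h5 := int_prime_five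
  have hc : (5 : ℤ) ∣ c := by
    have : (5 : ℤ) ∣ A * c ^ 3 := by
      rcases h with h | h
      · rw [h]; exact ⟨B' * D, by ring⟩
      · rw [h]; exact ⟨5 * B' * D, by ring⟩
    rcases h5.dvd_or_dvd this with h' | h'
    · exact absurd h' hA
    · exact h5.dvd_of_dvd_pow h'
  refine ⟨hc, ?_⟩
  obtain ⟨k, rfl⟩ := hc
  have hBD : (5 : ℤ) ∣ B' * D := by
    rcases h with h | h
    · have h' : (5 : ℤ) * (B' * D) = 5 * (5 * (5 * A * k ^ 3)) := by linear_combination -h
      exact ⟨_, mul_left_cancel₀ (by norm_num) h'⟩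
    · have h' : (25 : ℤ) * (B' * D) = 25 * (5 * (A * k ^ 3)) := by linear_combination -h
      exact ⟨_, mul_left_cancel₀ (by norm_num) h'⟩
  rcases h5.dvd_or_dvd hBD with h' | h'
  · exact absurd h' hB
  · exact h'

theorem semistable_false (W : WeierstrassCurve ℤ) (hW : W.IsSemistableModel) (d t : ℚ)
    (hΔ : (W.Δ : ℚ) = d ^ 3 * t) (hc4 : (W.c₄ : ℚ) = d * (t ^ 2 + 10 * t + 5))
    (ht : t = -10 ∨ t = -40 ∨ t = -25 / 2 ∨ t = -25 / 8) : False := by
  have key : (W.c₄ : ℚ) ^ 3 * t = (W.Δ : ℚ) * (t ^ 2 + 10 * t + 5) ^ 3 := by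
    rw [hΔ, hc4]; ring
  have hcon : (5 : ℤ) ∣ W.c₄ ∧ (5 : ℤ) ∣ W.Δ := by
    rcases ht with rfl | rfl | rfl | rfl
    · apply five_dvd_both W.c₄ W.Δ 2 (-1) (by norm_num) (by norm_num)
      right
      have : (2 : ℚ) * (W.c₄ : ℚ) ^ 3 = 25 * (-1) * (W.Δ : ℚ) := by
        linear_combination (-1 / 5 : ℚ) * key
      exact_mod_cast this
    · apply five_dvd_both W.c₄ W.Δ 8 (-13997521) (by norm_num) (by norm_num)
      right
      have : (8 : ℚ) * (W.c₄ : ℚ) ^ 3 = 25 * (-13997521) * (W.Δ : ℚ) := by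
        linear_combination (-1 / 5 : ℚ) * key
      exact_mod_cast this
    · apply five_dvd_both W.c₄ W.Δ 32 (-24389) (by norm_num) (by norm_num)
      left
      have : (32 : ℚ) * (W.c₄ : ℚ) ^ 3 = 5 * (-24389) * (W.Δ : ℚ) := by
        linear_combination (-64 / 25 : ℚ) * key
      exact_mod_cast this
    · apply five_dvd_both W.c₄ W.Δ 32768 (9393931) (by norm_num) (by norm_num)
      left
      have : (32768 : ℚ) * (W.c₄ : ℚ) ^ 3 = 5 * (9393931) * (W.Δ : ℚ) := by
        linear_combination (-262144 / 25 : ℚ) * key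
      exact_mod_cast this
  exact hW 5 (by norm_num) (by exact_mod_cast hcon.2) (by exact_mod_cast hcon.1)

section Map

variable {F K : Type*} [Field F] [Field K] (φ : F →+* K) (E : WeierstrassCurve F)

lemma dblDen_map (x : F) : dblDen (E.map φ) (φ x) = φ (dblDen E x) := by
  simp only [dblDen, map_b₂, map_b₄, map_b₆, map_add, map_mul, map_pow, map_ofNat]

lemma dblNum_map (x : F) : dblNum (E.map φ) (φ x) = φ (dblNum E x) := by
  simp only [dblNum, map_b₄, map_b₆, map_b₈, map_sub, map_mul, map_pow, map_ofNat]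

lemma triPoly_map (x : F) : triPoly (E.map φ) (φ x) = φ (triPoly E x) := by
  simp only [triPoly, map_b₂, map_b₄, map_b₆, map_b₈, map_add, map_mul, map_pow, map_ofNat]

end Map

/-- The main contradiction: a semistable integral model cannot carry simultaneously a rational
3-torsion abscissa and a rational pair of 5-torsion abscissas swapped by duplication. -/
theorem false_of_data
    (hE : ∀ X Y : ℚ, Y ^ 2 = X * (X + 9) * (X - 16) →
      X = 0 ∨ X = -9 ∨ X = 16 ∨ X = 36 ∨ X = -4)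
    (W : WeierstrassCurve ℤ) (hΔ : W.Δ ≠ 0) (hW : W.IsSemistableModel)
    {K : Type*} [Field K] (φ : ℚ →+* K) (r s₁ s₂ : ℚ) (x₁ x₂ : K)
    (hs₁ : x₁ + x₂ = φ s₁) (hs₂ : x₁ * x₂ = φ s₂) (hne : x₁ ≠ x₂)
    (hr : triPoly (W.map (Int.castRingHom ℚ)) r = 0)
    (hd1 : dblDen ((W.map (Int.castRingHom ℚ)).map φ) x₁ ≠ 0)
    (hd2 : dblDen ((W.map (Int.castRingHom ℚ)).map φ) x₂ ≠ 0)
    (hD1 : x₂ * dblDen ((W.map (Int.castRingHom ℚ)).map φ) x₁ =
      dblNum ((W.map (Int.castRingHom ℚ)).map φ) x₁)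
    (hD2 : x₁ * dblDen ((W.map (Int.castRingHom ℚ)).map φ) x₂ =
      dblNum ((W.map (Int.castRingHom ℚ)).map φ) x₂) : False := by
  set E := W.map (Int.castRingHom ℚ) with hEdef
  set EK := E.map φ with hEKdef
  have hφ : Function.Injective φ := φ.injective
  have h2 : (2 : K) ≠ 0 := by
    have : φ 2 ≠ 0 := (map_ne_zero φ).mpr (by norm_num)
    simpa using this
  have hrK : triPoly EK (φ r) = 0 := by rw [hEKdef, triPoly_map, hr, map_zero]
  have hEΔ : E.Δ = (W.Δ : ℚ) := by rw [hEdef, map_Δ]; simp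
  have hEc4 : E.c₄ = (W.c₄ : ℚ) := by rw [hEdef, map_c₄]; simp
  have hEΔ0 : E.Δ ≠ 0 := by rw [hEΔ]; exact_mod_cast hΔ
  obtain ⟨hI, hII, hIII⟩ := rel_of_data EK h2 x₁ x₂ (φ r) hne hd1 hD1 hD2 hrK
  -- rational quantities
  set d : ℚ := s₁ ^ 2 - 4 * s₂ with hd
  have hdK : (x₁ - x₂) ^ 2 = φ d := by
    rw [hd, map_sub, map_pow, map_mul, ← hs₁, ← hs₂, map_ofNat]; ring
  have hd0 : d ≠ 0 := by
    intro h
    rw [h, map_zero] at hdK
    exact hne (sub_eq_zero.mp (pow_eq_zero_iff (by norm_num) |>.mp hdK))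
  set Wq : ℚ := (2 * r - s₁) ^ 2 / d with hWq
  set t : ℚ := E.Δ / d ^ 3 with ht
  set z : ℚ := (2 * r - s₁) * (6 * s₁ + E.b₂) / d with hz
  have hWqK : (2 * φ r - (x₁ + x₂)) ^ 2 / φ d = φ Wq := by
    rw [hWq, hs₁]; simp only [map_div₀, map_pow, map_sub, map_mul, map_ofNat]
  have htK : EK.Δ / (φ d) ^ 3 = φ t := by
    rw [ht, hEKdef, map_Δ]; simp only [map_div₀, map_pow]
  have hzK : (2 * φ r - (x₁ + x₂)) * (6 * (x₁ + x₂) + EK.b₂) / φ d = φ z := by
    rw [hz, hs₁, hEKdef, map_b₂]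
    simp only [map_div₀, map_sub, map_mul, map_add, map_ofNat]
  simp only [hdK] at hI hII hIII
  simp only [hWqK, htK, hzK] at hI hII hIII
  have hI' : (Wq + 3) * z + (3 * Wq + 1) * (t + 11) + 3 / 2 * (Wq - 1) ^ 2 = 0 := by
    apply hφ
    rw [map_zero, ← hI]
    simp only [map_add, map_mul, map_sub, map_pow, map_div₀, map_ofNat, map_one]
  have hII' : z ^ 2 = Wq * ((t + 11) ^ 2 + 4) := by
    apply hφ
    simp only [map_add, map_mul, map_pow, map_ofNat]
    exact hII
  have hIII' : E.c₄ = d * (t ^ 2 + 10 * t + 5) := by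
    apply hφ
    rw [hEKdef, map_c₄] at hIII
    rw [hIII]
    simp only [map_add, map_mul, map_pow, map_ofNat]
  -- r is not one of the 5-torsion abscissas
  have hW1 : Wq ≠ 1 := by
    intro h1
    have hprod : (φ r - x₁) * (φ r - x₂) = 0 := by
      have h1K : φ Wq = 1 := by rw [h1, map_one]
      rw [← hWqK, ← hdK] at h1K
      have hdK0 : (x₁ - x₂) ^ 2 ≠ 0 := pow_ne_zero 2 (sub_ne_zero.mpr hne)
      rw [div_eq_one_iff_eq hdK0] at h1K
      have h4 : (4 : K) ≠ 0 := by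
        have : φ 4 ≠ 0 := (map_ne_zero φ).mpr (by norm_num)
        simpa using this
      have : (4 : K) * ((φ r - x₁) * (φ r - x₂)) = 0 := by linear_combination h1K
      rcases mul_eq_zero.mp this with h' | h'
      · exact absurd h' h4
      · exact h'
    rcases mul_eq_zero.mp hprod with h | h
    · have hx : φ r = x₁ := sub_eq_zero.mp h
      rw [hx, triPoly_eq, ← hD1] at hrK
      have : (x₁ - x₂) * dblDen EK x₁ = 0 := by linear_combination hrK
      rcases mul_eq_zero.mp this with h' | h'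
      · exact hne (sub_eq_zero.mp h')
      · exact hd1 h'
    · have hx : φ r = x₂ := sub_eq_zero.mp h
      rw [hx, triPoly_eq, ← hD2] at hrK
      have : (x₂ - x₁) * dblDen EK x₂ = 0 := by linear_combination hrK
      rcases mul_eq_zero.mp this with h' | h'
      · exact hne (sub_eq_zero.mp h').symm
      · exact hd2 h'
  have ht0 : t ≠ 0 := by
    rw [ht]; exact div_ne_zero hEΔ0 (pow_ne_zero 3 hd0)
  -- apply the rational analysis
  have hm : Wq = 4 * ((Wq - 1) / 4) + 1 := by ring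
  have hm0 : (Wq - 1) / 4 ≠ 0 := by
    intro h; apply hW1; linear_combination 4 * h
  have hτ : t + 11 ≠ 11 := by
    intro h; apply ht0; linear_combination h
  rw [hm] at hI' hII'
  have hcases := rat_main_aux hE ((Wq - 1) / 4) (t + 11) z hI' hII' hτ hm0
  have htcases : t = -10 ∨ t = -40 ∨ t = -25 / 2 ∨ t = -25 / 8 := by
    rcases hcases with h | h | h | h
    · left; linarith
    · right; left; linarith
    · right; right; left; linarith
    · right; right; right; linarith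
  refine semistable_false W hW d t ?_ ?_ htcases
  · rw [← hEΔ, ht]; field_simp
  · rw [← hEc4, hIII']

end Fermat.Agent.S51
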