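import Fermat.Agent.S51.Basic

set_option autoImplicit false

namespace Fermat.Agent.S51

open WeierstrassCurve

variable {F : Type*} [Field F]

/-- `4 * dblNum = (6x² + b₂x + b₄)² - (b₂ + 8x) * dblDen` -/
lemma four_mul_dblNum (W : WeierstrassCurve F) (x : F) :
    4 * dblNum W x = (6 * x ^ 2 + W.b₂ * x + W.b₄) ^ 2 - (W.b₂ + 8 * x) * dblDen W x := by
  simp only [dblNum, dblDen, b₂, b₄, b₆, b₈]
  ring

/-- `6x² + b₂x + b₄ = -2 W_X - a₁ W_Y` -/
lemma c4_eq (W : WeierstrassCurve F) (x y : F) :
    6 * x ^ 2 + W.b₂ * x + W.b₄ =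
      -2 * (W.a₁ * y - (3 * x ^ 2 + 2 * W.a₂ * x + W.a₄)) + W.a₁ * (2 * y + W.a₁ * x + W.a₃) := by
  simp only [b₂, b₄]
  ring

/-- at a nonsingular point, `dblDen` and `dblNum` do not vanish simultaneously -/
lemma dblNum_ne_zero_of_dblDen_eq_zero [CharZero F] (W : WeierstrassCurve F) {x y : F}
    (h : W.toAffine.Nonsingular x y) (hd : dblDen W x = 0) : dblNum W x ≠ 0 := by
  intro hn
  have h1 : (2 * y + W.a₁ * x + W.a₃) = 0 := by
    have := dblDen_eq_sq W h.1
    rw [hd] at this
    exact pow_eq_zero_iff (two_ne_zero) |>.mp this.symm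
  have h2 : (6 * x ^ 2 + W.b₂ * x + W.b₄) ^ 2 = 0 := by
    have := four_mul_dblNum W x
    rw [hn, hd] at this
    linear_combination -this
  have h3 : 6 * x ^ 2 + W.b₂ * x + W.b₄ = 0 := pow_eq_zero_iff (two_ne_zero) |>.mp h2
  rw [c4_eq W x y, h1] at h3
  have h4 : W.a₁ * y - (3 * x ^ 2 + 2 * W.a₂ * x + W.a₄) = 0 := by
    have : (-2 : F) * (W.a₁ * y - (3 * x ^ 2 + 2 * W.a₂ * x + W.a₄)) = 0 := by
      linear_combination h3
    rcases mul_eq_zero.mp this with h | h
    · norm_num at h
    · exact h
  rw [Affine.nonsingular_iff'] at h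
  rcases h.2 with h | h
  · exact h h4
  · exact h h1

section Polys

open Polynomial

/-- the 3-division polynomial as a polynomial -/
noncomputable def triPolyPoly (W : WeierstrassCurve F) : F[X] :=
  C 3 * X ^ 4 + C W.b₂ * X ^ 3 + C (3 * W.b₄) * X ^ 2 + C (3 * W.b₆) * X + C W.b₈

lemma eval_triPolyPoly (W : WeierstrassCurve F) (x : F) :
    (triPolyPoly W).eval x = triPoly W x := by
  simp only [triPolyPoly, triPoly, eval_add, eval_mul, eval_C, eval_pow, eval_X]
  try ring

lemma natDegree_triPolyPoly [CharZero F] (W : WeierstrassCurve F) :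
    (triPolyPoly W).natDegree = 4 := by
  unfold triPolyPoly
  compute_degree!

lemma triPolyPoly_ne_zero [CharZero F] (W : WeierstrassCurve F) : triPolyPoly W ≠ 0 := by
  intro h
  have := natDegree_triPolyPoly W
  rw [h, natDegree_zero] at this
  exact absurd this (by norm_num)

/-- the Weierstrass equation in `y` for fixed `x`, as a polynomial -/
noncomputable def yPoly (W : WeierstrassCurve F) (x : F) : F[X] :=
  X ^ 2 + C (W.a₁ * x + W.a₃) * X - C (x ^ 3 + W.a₂ * x ^ 2 + W.a₄ * x + W.a₆)

lemma eval_yPoly (W : WeierstrassCurve F) (x y : F) :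
    (yPoly W x).eval y = y ^ 2 + W.a₁ * x * y + W.a₃ * y - (x ^ 3 + W.a₂ * x ^ 2 + W.a₄ * x + W.a₆) := by
  simp only [yPoly, eval_add, eval_sub, eval_mul, eval_C, eval_pow, eval_X]
  ring

lemma natDegree_yPoly (W : WeierstrassCurve F) (x : F) : (yPoly W x).natDegree = 2 := by
  unfold yPoly
  compute_degree!

lemma yPoly_ne_zero (W : WeierstrassCurve F) (x : F) : yPoly W x ≠ 0 := by
  intro h
  have := natDegree_yPoly W x
  rw [h, natDegree_zero] at this
  exact absurd this (by norm_num)

lemma equation_iff_isRoot_yPoly (W : WeierstrassCurve F) (x y : F) :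
    W.toAffine.Equation x y ↔ (yPoly W x).IsRoot y := by
  rw [Affine.equation_iff', IsRoot, eval_yPoly]

end Polys

variable [DecidableEq F]

theorem three_nsmul_some_eq_zero_iff [CharZero F] (W : WeierstrassCurve F) {x y : F}
    (h : W.toAffine.Nonsingular x y) :
    (3 : ℕ) • Affine.Point.some x y h = 0 ↔ triPoly W x = 0 := by
  have h3 : (3 : ℕ) • Affine.Point.some x y h =
      (2 : ℕ) • Affine.Point.some x y h + Affine.Point.some x y h := by
    rw [succ_nsmul]
  constructor
  · intro h0
    have h2 : (2 : ℕ) • Affine.Point.some x y h = -Affine.Point.some x y h := by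
      rw [h3] at h0
      exact eq_neg_of_add_eq_zero_left h0
    have hd : dblDen W x ≠ 0 := by
      intro hd
      rw [(two_nsmul_some_eq_zero_iff W h).mpr hd] at h2
      exact Affine.Point.some_ne_zero h (neg_eq_zero.mp h2.symm)
    obtain ⟨x', y', h', e, hx'⟩ := two_nsmul_some_of_dblDen_ne W h hd
    rw [e, Affine.Point.neg_some] at h2
    have hxx : x' = x := by
      injection h2
    rw [triPoly_eq, ← hx', hxx]
    ring
  · intro ht
    rw [triPoly_eq, sub_eq_zero] at ht
    by_cases hd : dblDen W x = 0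
    · exfalso
      apply dblNum_ne_zero_of_dblDen_eq_zero W h hd
      rw [← ht, hd, mul_zero]
    · obtain ⟨x', y', h', e, hx'⟩ := two_nsmul_some_of_dblDen_ne W h hd
      have hxx : x' = x := mul_right_cancel₀ hd (hx'.trans ht.symm)
      rw [h3, e]
      rcases (Affine.Point.X_eq_iff (h₁ := h') (h₂ := h)).mp hxx with h1 | h1
      · exfalso
        rw [← e] at h1
        have : Affine.Point.some x y h = 0 := by
          have h5 : (2 : ℕ) • Affine.Point.some x y h = Affine.Point.some x y h + Affine.Point.some x y h :=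
            two_nsmul _
          rw [h5] at h1
          exact add_eq_right.mp h1 |> fun t => t
        exact Affine.Point.some_ne_zero h this
      · rw [h1]
        exact neg_add_cancel _

open Polynomial in
theorem exists_three_torsion [CharZero F] (W : WeierstrassCurve F) [W.IsElliptic] [IsAlgClosed F] :
    ∃ P : W.toAffine.Point, P ≠ 0 ∧ (3 : ℕ) • P = 0 := by
  obtain ⟨x, hx⟩ := IsAlgClosed.exists_root (triPolyPoly W) (by
    rw [degree_eq_natDegree (triPolyPoly_ne_zero W), natDegree_triPolyPoly]; norm_num)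
  obtain ⟨y, hy⟩ := IsAlgClosed.exists_root (yPoly W x) (by
    rw [degree_eq_natDegree (yPoly_ne_zero W x), natDegree_yPoly]; norm_num)
  have he : W.toAffine.Equation x y := (equation_iff_isRoot_yPoly W x y).mpr hy
  have hns : W.toAffine.Nonsingular x y := Affine.equation_iff_nonsingular.mp he
  refine ⟨Affine.Point.some x y hns, Affine.Point.some_ne_zero hns, ?_⟩
  rw [three_nsmul_some_eq_zero_iff W hns, ← eval_triPolyPoly]
  exact hx

open Polynomial in
theorem three_torsion_card [CharZero F] (W : WeierstrassCurve F) :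
    Set.Finite {P : W.toAffine.Point | (3 : ℕ) • P = 0} ∧
      Set.ncard {P : W.toAffine.Point | (3 : ℕ) • P = 0} ≤ 9 := by
  classical
  let Rx : Finset F := (triPolyPoly W).roots.toFinset
  let Ry : F → Finset F := fun x => (yPoly W x).roots.toFinset
  let S : Finset (Σ _ : F, F) := Rx.sigma Ry
  let g : (Σ _ : F, F) → W.toAffine.Point := fun p =>
    if h : W.toAffine.Nonsingular p.1 p.2 then Affine.Point.some p.1 p.2 h else 0
  have hRx : Rx.card ≤ 4 := by
    refine (Multiset.toFinset_card_le _).trans ?_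
    refine (Polynomial.card_roots' _).trans ?_
    rw [natDegree_triPolyPoly]
  have hRy : ∀ x, (Ry x).card ≤ 2 := by
    intro x
    refine (Multiset.toFinset_card_le _).trans ?_
    refine (Polynomial.card_roots' _).trans ?_
    rw [natDegree_yPoly]
  have hS : S.card ≤ 8 := by
    rw [Finset.card_sigma]
    calc ∑ x ∈ Rx, (Ry x).card ≤ ∑ _x ∈ Rx, 2 := Finset.sum_le_sum fun x _ => hRy x
      _ = Rx.card * 2 := by rw [Finset.sum_const, smul_eq_mul]
      _ ≤ 4 * 2 := Nat.mul_le_mul_right 2 hRx
  have hsub : {P : W.toAffine.Point | (3 : ℕ) • P = 0} ⊆ ↑(insert 0 (S.image g)) := by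
    intro P hP
    change (3 : ℕ) • P = 0 at hP
    rw [Finset.coe_insert, Set.mem_insert_iff]
    rcases P with _ | ⟨x, y, h⟩
    · left; rfl
    · right
      rw [Finset.mem_coe, Finset.mem_image]
      refine ⟨⟨x, y⟩, ?_, ?_⟩
      · rw [Finset.mem_sigma]
        constructor
        · rw [Multiset.mem_toFinset, Polynomial.mem_roots (triPolyPoly_ne_zero W), IsRoot,
            eval_triPolyPoly]
          exact (three_nsmul_some_eq_zero_iff W h).mp hP
        · rw [Multiset.mem_toFinset, Polynomial.mem_roots (yPoly_ne_zero W x),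
            ← equation_iff_isRoot_yPoly]
          exact h.1
      · show (if h' : W.toAffine.Nonsingular x y then Affine.Point.some x y h' else 0) = _
        rw [dif_pos h]
  refine ⟨(Finset.finite_toSet _).subset hsub, ?_⟩
  calc Set.ncard {P : W.toAffine.Point | (3 : ℕ) • P = 0}
      ≤ Set.ncard (↑(insert 0 (S.image g)) : Set W.toAffine.Point) :=
        Set.ncard_le_ncard hsub (Finset.finite_toSet _)
    _ = (insert 0 (S.image g)).card := Set.ncard_coe_finset _
    _ ≤ (S.image g).card + 1 := Finset.card_insert_le _ _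
    _ ≤ S.card + 1 := Nat.add_le_add_right Finset.card_image_le 1
    _ ≤ 9 := by omega

end Fermat.Agent.S51
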