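import Fermat.Agent.S51.Basic

/-!
# S51, piece T5 (parts a and c): 5-torsion points, addition-formula bookkeeping

* `five_torsion_data` (T5a): for a 5-torsion point `P = (x, y)`, `2P = (x₂, y₂)` is affine and the
  doubling map swaps `x` and `x₂`.
* `five_torsion_card` (T5c): the 5-torsion is finite, of cardinality `< 125`.
-/

set_option autoImplicit false

namespace Fermat.Agent.S51

open WeierstrassCurve Polynomial

section T5a

variable {F : Type*} [Field F] [DecidableEq F] (W : WeierstrassCurve F)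

/-- (T5a) For a point `P = (x, y)` of order 5 the double `2P = (x₂, y₂)` is affine, `x₂ ≠ x`,
neither `P` nor `2P` is 2-torsion, and the doubling map exchanges `x` and `x₂`. -/
theorem five_torsion_data {x y : F} (h : W.toAffine.Nonsingular x y)
    (h5 : (5 : ℕ) • Affine.Point.some x y h = 0) :
    ∃ (x₂ y₂ : F) (h₂ : W.toAffine.Nonsingular x₂ y₂),
      (2 : ℕ) • Affine.Point.some x y h = Affine.Point.some x₂ y₂ h₂ ∧ x₂ ≠ x ∧
      dblDen W x ≠ 0 ∧ dblDen W x₂ ≠ 0 ∧ x₂ * dblDen W x = dblNum W x ∧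
      x * dblDen W x₂ = dblNum W x₂ := by
  set P : W.toAffine.Point := Affine.Point.some x y h with hPdef
  have hP : P ≠ 0 := Affine.Point.some_ne_zero h
  have h2 : (2 : ℕ) • P ≠ 0 := by
    intro h2
    apply hP
    have : (5 : ℕ) • P = (2 : ℕ) • ((2 : ℕ) • P) + P := by abel
    rw [this, h2, smul_zero, zero_add] at h5
    exact h5
  have hd : dblDen W x ≠ 0 := fun hd => h2 ((two_nsmul_some_eq_zero_iff W h).mpr hd)
  obtain ⟨x₂, y₂, h₂, e2, hx2⟩ := two_nsmul_some_of_dblDen_ne W h hd
  have h4 : (2 : ℕ) • (Affine.Point.some x₂ y₂ h₂) ≠ 0 := by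
    intro h4
    apply hP
    rw [← e2] at h4
    have : (5 : ℕ) • P = (2 : ℕ) • ((2 : ℕ) • P) + P := by abel
    rw [this, h4, zero_add] at h5
    exact h5
  have hd2 : dblDen W x₂ ≠ 0 := fun hd2 => h4 ((two_nsmul_some_eq_zero_iff W h₂).mpr hd2)
  obtain ⟨x₄, y₄, h₄, e4, hx4⟩ := two_nsmul_some_of_dblDen_ne W h₂ hd2
  have h4P : Affine.Point.some x₄ y₄ h₄ = -P := by
    rw [← e4, ← e2]
    have : (5 : ℕ) • P = (2 : ℕ) • ((2 : ℕ) • P) + P := by abel
    rw [this] at h5
    exact eq_neg_of_add_eq_zero_left h5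
  have hx4x : x₄ = x := by
    rw [hPdef, Affine.Point.neg_some] at h4P
    injection h4P
  refine ⟨x₂, y₂, h₂, e2, ?_, hd, hd2, hx2, ?_⟩
  · intro hxx
    have hcases := (Affine.Point.X_eq_iff (h₁ := h₂) (h₂ := h)).mp hxx
    rw [← e2] at hcases
    rcases hcases with hc | hc
    · -- 2P = P
      apply hP
      have : P = (2 : ℕ) • P - P := by abel
      rw [this, hc, sub_self]
    · -- 2P = -P, so 3P = 0, so 2P = 0
      apply h2
      have h3 : (3 : ℕ) • P = 0 := by
        have : (3 : ℕ) • P = (2 : ℕ) • P + P := by abel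
        rw [this, hc, neg_add_cancel]
      have : (2 : ℕ) • P = (5 : ℕ) • P - (3 : ℕ) • P := by abel
      rw [this, h5, h3, sub_zero]
  · rw [← hx4x]; exact hx4

/-- points whose `x`-coordinate is a root of a fixed nonzero polynomial: finitely many. -/
theorem finite_of_forall_isRoot (p : F[X]) (hp : p ≠ 0) (S : Set W.toAffine.Point)
    (hS : ∀ P ∈ S, P = 0 ∨ ∃ (x y : F) (h : W.toAffine.Nonsingular x y),
      P = Affine.Point.some x y h ∧ p.IsRoot x) :
    S.Finite ∧ S.ncard ≤ 2 * p.natDegree + 1 := by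
  classical
  let R : Finset F := p.roots.toFinset
  have hRcard : R.card ≤ p.natDegree :=
    (Multiset.toFinset_card_le _).trans (Polynomial.card_roots' p)
  let g : Option (F × Bool) → W.toAffine.Point := fun o =>
    match o with
    | none => 0
    | some (x, b) =>
      if hx : ∃ y, W.toAffine.Nonsingular x y then
        (if b then Affine.Point.some x hx.choose hx.choose_spec
          else -Affine.Point.some x hx.choose hx.choose_spec)
      else 0
  let T : Finset (Option (F × Bool)) := insert none ((R ×ˢ (Finset.univ : Finset Bool)).image some)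
  have hTcard : T.card ≤ 2 * p.natDegree + 1 := by
    refine (Finset.card_insert_le _ _).trans ?_
    refine Nat.succ_le_succ ?_
    refine Finset.card_image_le.trans ?_
    rw [Finset.card_product, Finset.card_univ, Fintype.card_bool, mul_comm]
    exact Nat.mul_le_mul_left 2 hRcard
  have hsub : S ⊆ g '' (T : Set (Option (F × Bool))) := by
    intro P hP
    rcases hS P hP with rfl | ⟨x, y, h, rfl, hroot⟩
    · exact ⟨none, by simp [T], rfl⟩
    · have hx : ∃ y, W.toAffine.Nonsingular x y := ⟨y, h⟩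
      have hxR : x ∈ R := by
        simp only [R, Multiset.mem_toFinset]
        exact (Polynomial.mem_roots hp).mpr hroot
      rcases (Affine.Point.X_eq_iff (h₁ := h) (h₂ := hx.choose_spec)).mp rfl with hc | hc
      · refine ⟨some (x, true), ?_, ?_⟩
        · simp [T, hxR]
        · simp only [g, dif_pos hx, if_true]
          exact hc.symm
      · refine ⟨some (x, false), ?_, ?_⟩
        · simp [T, hxR]
        · simp only [g, dif_pos hx]
          exact hc.symm
  have hfin : (g '' (T : Set (Option (F × Bool)))).Finite := (T.finite_toSet).image g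
  refine ⟨hfin.subset hsub, ?_⟩
  calc S.ncard ≤ (g '' (T : Set (Option (F × Bool)))).ncard := Set.ncard_le_ncard hsub hfin
    _ ≤ (T : Set (Option (F × Bool))).ncard := Set.ncard_image_le T.finite_toSet
    _ = T.card := Set.ncard_coe_finset T
    _ ≤ 2 * p.natDegree + 1 := hTcard

end T5a

section Polys

variable {F : Type*} [Field F] (W : WeierstrassCurve F)

/-- `dblDen` as a polynomial -/
noncomputable def dblDenPoly : F[X] :=
  C 4 * X ^ 3 + C W.b₂ * X ^ 2 + C (2 * W.b₄) * X + C W.b₆

/-- `dblNum` as a polynomial -/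
noncomputable def dblNumPoly : F[X] :=
  X ^ 4 - C W.b₄ * X ^ 2 - C (2 * W.b₆) * X - C W.b₈

/-- the polynomial whose roots contain the `x`-coordinates of points with `x(4P) = x(P)`. -/
noncomputable def quadFixPoly : F[X] :=
  dblNumPoly W ^ 4 - C W.b₄ * dblNumPoly W ^ 2 * dblDenPoly W ^ 2
    - C (2 * W.b₆) * dblNumPoly W * dblDenPoly W ^ 3 - C W.b₈ * dblDenPoly W ^ 4
    - X * dblDenPoly W * (C 4 * dblNumPoly W ^ 3 + C W.b₂ * dblNumPoly W ^ 2 * dblDenPoly W
      + C (2 * W.b₄) * dblNumPoly W * dblDenPoly W ^ 2 + C W.b₆ * dblDenPoly W ^ 3)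

lemma eval_dblDenPoly (x : F) : (dblDenPoly W).eval x = dblDen W x := by
  simp [dblDenPoly, dblDen]

lemma eval_dblNumPoly (x : F) : (dblNumPoly W).eval x = dblNum W x := by
  simp [dblNumPoly, dblNum]

lemma eval_quadFixPoly (x : F) : (quadFixPoly W).eval x =
    dblNum W x ^ 4 - W.b₄ * dblNum W x ^ 2 * dblDen W x ^ 2
    - 2 * W.b₆ * dblNum W x * dblDen W x ^ 3 - W.b₈ * dblDen W x ^ 4
    - x * dblDen W x * (4 * dblNum W x ^ 3 + W.b₂ * dblNum W x ^ 2 * dblDen W x
      + 2 * W.b₄ * dblNum W x * dblDen W x ^ 2 + W.b₆ * dblDen W x ^ 3) := by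
  simp [quadFixPoly, eval_dblDenPoly, eval_dblNumPoly]

lemma natDegree_quadFixPoly_le : (quadFixPoly W).natDegree ≤ 16 := by
  unfold quadFixPoly dblNumPoly dblDenPoly
  compute_degree

lemma coeff_quadFixPoly : (quadFixPoly W).coeff 16 = -15 := by
  unfold quadFixPoly dblNumPoly dblDenPoly
  compute_degree!

lemma quadFixPoly_ne_zero [CharZero F] : quadFixPoly W ≠ 0 := by
  intro h0
  have h := coeff_quadFixPoly W
  rw [h0, coeff_zero] at h
  have h15 : (15 : F) = 0 := by linear_combination h
  exact (by norm_num : ((15 : ℕ) : F) ≠ 0) (by exact_mod_cast h15)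

/-- if the doubling map sends `x ↦ x₂ ↦ x`, then `x` is a root of `quadFixPoly`. -/
lemma isRoot_quadFixPoly {x x₂ : F} (h1 : x₂ * dblDen W x = dblNum W x)
    (h2 : x * dblDen W x₂ = dblNum W x₂) : (quadFixPoly W).IsRoot x := by
  rw [IsRoot.def, eval_quadFixPoly, ← h1]
  simp only [dblDen, dblNum] at h2
  simp only [dblDen]
  linear_combination (-(4 * x ^ 3 + W.b₂ * x ^ 2 + 2 * W.b₄ * x + W.b₆) ^ 4) * h2

end Polys

section T5c

variable {F : Type*} [Field F] [DecidableEq F] [CharZero F] (W : WeierstrassCurve F)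

/-- (T5c) the 5-torsion is finite of cardinality `< 125` (in fact `≤ 33`). -/
theorem five_torsion_card :
    Set.Finite {P : W.toAffine.Point | (5 : ℕ) • P = 0} ∧
      Set.ncard {P : W.toAffine.Point | (5 : ℕ) • P = 0} < 125 := by
  have key := finite_of_forall_isRoot W (quadFixPoly W) (quadFixPoly_ne_zero W)
    {P : W.toAffine.Point | (5 : ℕ) • P = 0} (by
      intro P hP
      rcases P with _ | ⟨x, y, h⟩
      · exact Or.inl rfl
      · right
        obtain ⟨x₂, y₂, h₂, -, -, -, -, e1, e2⟩ := five_torsion_data W h hP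
        exact ⟨x, y, h, rfl, isRoot_quadFixPoly W e1 e2⟩)
  refine ⟨key.1, lt_of_le_of_lt key.2 ?_⟩
  have := natDegree_quadFixPoly_le W
  omega

end T5c

end Fermat.Agent.S51
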