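import Mathlib
import Fermat.Prelude.Def_FLTPrelim_GaloisRep
import Fermat.Agent.S51.Basic
import Fermat.Agent.S51.Tors3
import Fermat.Agent.S51.Tors5

set_option autoImplicit false

open WeierstrassCurve WeierstrassCurve.Affine WeierstrassCurve.Affine.Point

namespace Fermat.Agent.S51

/-! ### Generalities -/

theorem galois_isAlgebraic_qbar : Algebra.IsAlgebraic ℚ (AlgebraicClosure ℚ) :=
  AlgebraicClosure.isAlgebraic ℚ

theorem galois_isAlgClosure_qbar : IsAlgClosure ℚ (AlgebraicClosure ℚ) :=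
  ⟨inferInstance, galois_isAlgebraic_qbar⟩

theorem galois_isGalois_qbar : IsGalois ℚ (AlgebraicClosure ℚ) :=
  have := galois_isAlgClosure_qbar
  inferInstance

/-- An element of `AlgebraicClosure ℚ` fixed by the whole Galois group is rational. -/
theorem galois_exists_rat_of_fixed (x : AlgebraicClosure ℚ)
    (hx : ∀ σ : AlgebraicClosure ℚ ≃ₐ[ℚ] AlgebraicClosure ℚ, σ x = x) :
    ∃ q : ℚ, algebraMap ℚ (AlgebraicClosure ℚ) q = x := by
  have := galois_isGalois_qbar
  exact (InfiniteGalois.mem_range_algebraMap_iff_fixed x).mpr hx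

/-- A proper nonzero subspace of a finite `ZMod p`-vector space with fewer than `p^3` elements
is a line. -/
theorem galois_exists_generator_of_card_lt {p : ℕ} [Fact p.Prime] {T : Type*} [AddCommGroup T]
    [Module (ZMod p) T] [Finite T] (hcard : Nat.card T < p ^ 3)
    (N : Submodule (ZMod p) T) (hbot : N ≠ ⊥) (htop : N ≠ ⊤) :
    ∃ P ∈ N, P ≠ 0 ∧ ∀ Q ∈ N, ∃ c : ZMod p, Q = c • P := by
  have hfin : Module.Finite (ZMod p) T := Module.Finite.of_finite
  have hp : 1 < p := (Fact.out : p.Prime).one_lt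
  have hcardT : Nat.card T = p ^ Module.finrank (ZMod p) T := by
    have := Module.natCard_eq_pow_finrank (K := ZMod p) (V := T)
    simpa [Nat.card_zmod] using this
  have hT : Module.finrank (ZMod p) T < 3 := by
    rw [hcardT] at hcard
    exact (Nat.pow_lt_pow_iff_right hp).mp hcard
  have hN1 : Module.finrank (ZMod p) N < Module.finrank (ZMod p) T :=
    Submodule.finrank_lt htop
  have hN0 : 0 < Module.finrank (ZMod p) N := by
    rw [Module.finrank_pos_iff]
    exact Submodule.nontrivial_iff_ne_bot.mpr hbot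
  have hN : Module.finrank (ZMod p) N = 1 := by omega
  obtain ⟨v, hv0, hv⟩ := finrank_eq_one_iff'.mp hN
  refine ⟨v, v.2, fun h => hv0 (Subtype.ext h), fun Q hQ => ?_⟩
  obtain ⟨c, hc⟩ := hv ⟨Q, hQ⟩
  exact ⟨c, by rw [← Submodule.coe_smul, hc]⟩

section Curve

variable (E : WeierstrassCurve ℚ)

local notation "Qbar" => AlgebraicClosure ℚ

/-- the `n`-torsion module of the prelude -/
noncomputable abbrev galTors (n : ℕ) : Submodule ℤ (E⁄Qbar).Point := Submodule.torsionBy ℤ (E⁄Qbar).Point n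

theorem galois_smul_some (σ : Qbar ≃ₐ[ℚ] Qbar)
    {x y : Qbar} (h : (E⁄Qbar).toAffine.Nonsingular x y) :
    ∃ h', σ • (Point.some x y h : (E⁄Qbar).Point) = Point.some (σ x) (σ y) h' :=
  ⟨_, Point.map_some σ.toAlgHom h⟩

theorem galois_mem_tors_iff (n : ℕ) (P : (E⁄Qbar).Point) : P ∈ (galTors E n) ↔ n • P = 0 := by
  rw [Submodule.mem_torsionBy_iff, natCast_zsmul]

theorem galois_tors_finite_of (n : ℕ) (hfin : Set.Finite {P : (E⁄Qbar).toAffine.Point | n • P = 0}) :
    Finite (galTors E n) := by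
  have : (galTors E n : Set (E⁄Qbar).Point) =
      {P : (E⁄Qbar).toAffine.Point | n • P = 0} := by
    ext P; exact galois_mem_tors_iff E n P
  exact (this ▸ hfin).to_subtype

theorem galois_tors_card_eq (n : ℕ) :
    Nat.card (galTors E n) = Set.ncard {P : (E⁄Qbar).toAffine.Point | n • P = 0} := by
  have : (galTors E n : Set (E⁄Qbar).Point) =
      {P : (E⁄Qbar).toAffine.Point | n • P = 0} := by
    ext P; exact galois_mem_tors_iff E n P
  rw [← this]
  rfl

theorem galois_isElliptic_baseChange [hE : E.IsElliptic] : (E⁄Qbar).IsElliptic := by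
  change (E.map (algebraMap ℚ Qbar)).IsElliptic
  infer_instance

theorem triPoly_baseChange (r : ℚ) :
    triPoly (E⁄Qbar) (algebraMap ℚ Qbar r) = algebraMap ℚ Qbar (triPoly E r) := by
  simp only [triPoly, WeierstrassCurve.baseChange, map_b₂, map_b₄, map_b₆, map_b₈, map_add,
    map_mul, map_pow, map_ofNat]

/-- (Ga) If the mod `3` representation is reducible then the `3`-division polynomial has a
rational root. -/
theorem exists_rat_root_triPoly [hE : E.IsElliptic]
    (hirr : ¬ GaloisRepIsIrreducible (K := Qbar) ℚ E 3) : ∃ r : ℚ, triPoly E r = 0 := by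
  have hEK : (E⁄Qbar).IsElliptic := galois_isElliptic_baseChange E
  have : Fact (Nat.Prime 3) := ⟨Nat.prime_three⟩
  -- finiteness and cardinality
  obtain ⟨hfin, hcard⟩ := three_torsion_card (E⁄Qbar)
  have hfinT : Finite (galTors E 3) := galois_tors_finite_of E 3 hfin
  have hcardT : Nat.card (galTors E 3) < 3 ^ 3 := by
    rw [galois_tors_card_eq E 3]; omega
  -- nontriviality
  have hnontriv : Nontrivial (galTors E 3) := by
    obtain ⟨P, hP0, hP3⟩ := exists_three_torsion (E⁄Qbar)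
    refine ⟨⟨⟨P, (galois_mem_tors_iff E 3 P).mpr hP3⟩, 0, fun h => hP0 ?_⟩⟩
    exact congrArg Subtype.val h
  -- a stable line
  have hex : ∃ N : Submodule (ZMod 3) (galTors E 3),
      IsGaloisStable ℚ N ∧ N ≠ ⊥ ∧ N ≠ ⊤ := by
    by_contra hcon
    apply hirr
    refine ⟨hnontriv, fun N hN => ?_⟩
    by_contra hN'
    push Not at hN'
    exact hcon ⟨N, hN, hN'.1, hN'.2⟩
  obtain ⟨N, hstable, hbot, htop⟩ := hex
  obtain ⟨P, hPN, hP0, hgen⟩ := galois_exists_generator_of_card_lt hcardT N hbot htop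
  -- the underlying point
  obtain ⟨P0, hP0mem⟩ := P
  have hP3 : 3 • P0 = 0 := (galois_mem_tors_iff E 3 P0).mp hP0mem
  have hP0ne : P0 ≠ 0 := fun h => hP0 (Subtype.ext h)
  rcases P0 with _ | ⟨x, y, hxy⟩
  · exact absurd rfl hP0ne
  have htri : triPoly (E⁄Qbar) x = 0 := (three_nsmul_some_eq_zero_iff (E⁄Qbar) hxy).mp hP3
  -- Galois invariance of x
  have hfix : ∀ σ : Qbar ≃ₐ[ℚ] Qbar, σ x = x := by
    intro σ
    obtain ⟨c, hc⟩ := hgen _ (hstable σ _ hPN)
    have hc' := congrArg Subtype.val hc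
    obtain ⟨h', hσ⟩ := galois_smul_some E σ hxy
    have hσP : (((σ • (⟨Point.some x y hxy, hP0mem⟩ : galTors E 3) : galTors E 3)) :
        (E⁄Qbar).Point) = Point.some (σ x) (σ y) h' := hσ
    rw [hσP] at hc'
    have hck : c = ((c.val : ℕ) : ZMod 3) := (ZMod.natCast_zmod_val c).symm
    rw [hck, Nat.cast_smul_eq_nsmul] at hc'
    have hlt : c.val < 3 := ZMod.val_lt c
    rw [AddSubmonoidClass.coe_nsmul] at hc'
    change Point.some (σ x) (σ y) h' = c.val • Point.some x y hxy at hc'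
    interval_cases c.val
    · -- c = 0
      rw [zero_nsmul] at hc'
      exact absurd hc' (Point.some_ne_zero _)
    · -- c = 1
      rw [one_nsmul] at hc'
      injection hc' with hx _
    · -- c = 2
      have hneg : (2 : ℕ) • (Point.some x y hxy : (E⁄Qbar).Point) = - Point.some x y hxy := by
        rw [eq_neg_iff_add_eq_zero]
        have : (3 : ℕ) • (Point.some x y hxy : (E⁄Qbar).Point) = 0 := hP3
        rw [← this]; simp only [succ_nsmul, zero_nsmul, zero_add]
      rw [hneg, Point.neg_some] at hc'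
      injection hc' with hx _
  obtain ⟨r, hr⟩ := galois_exists_rat_of_fixed x hfix
  refine ⟨r, ?_⟩
  rw [← hr, triPoly_baseChange] at htri
  exact (map_eq_zero_iff _ (algebraMap ℚ Qbar).injective).mp htri

theorem dblDen_baseChange (r : ℚ) :
    dblDen (E⁄Qbar) (algebraMap ℚ Qbar r) = algebraMap ℚ Qbar (dblDen E r) := by
  simp only [dblDen, WeierstrassCurve.baseChange, map_b₂, map_b₄, map_b₆, map_add,
    map_mul, map_pow, map_ofNat]

theorem dblNum_baseChange (r : ℚ) :
    dblNum (E⁄Qbar) (algebraMap ℚ Qbar r) = algebraMap ℚ Qbar (dblNum E r) := by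
  simp only [dblNum, WeierstrassCurve.baseChange, map_b₄, map_b₆, map_b₈, map_sub,
    map_mul, map_pow, map_ofNat]

theorem galois_X_eq_of_eq_or_eq_neg {x y x' y' : Qbar} {h : (E⁄Qbar).toAffine.Nonsingular x y}
    {h' : (E⁄Qbar).toAffine.Nonsingular x' y'}
    (e : (Point.some x y h : (E⁄Qbar).Point) = Point.some x' y' h' ∨
      (Point.some x y h : (E⁄Qbar).Point) = - Point.some x' y' h') : x = x' := by
  rcases e with e | e
  · injection e
  · rw [Point.neg_some] at e
    injection e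

/-- (Gb) If the mod `5` representation is reducible then there is a point `P` of order `5`
such that the symmetric functions of `x(P)`, `x(2P)` are rational. The existence of a nonzero
`5`-torsion point is taken as a hypothesis (it is `exists_five_torsion (E⁄Qbar)`). -/
theorem exists_five_data [hE : E.IsElliptic]
    (hex5 : ∃ P : (E⁄Qbar).toAffine.Point, P ≠ 0 ∧ (5 : ℕ) • P = 0)
    (hirr : ¬ GaloisRepIsIrreducible (K := Qbar) ℚ E 5) :
    ∃ (x₁ x₂ : Qbar) (s₁ s₂ : ℚ), x₁ + x₂ = algebraMap ℚ Qbar s₁ ∧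
      x₁ * x₂ = algebraMap ℚ Qbar s₂ ∧ x₁ ≠ x₂ ∧
      dblDen (E⁄Qbar) x₁ ≠ 0 ∧ dblDen (E⁄Qbar) x₂ ≠ 0 ∧
      x₂ * dblDen (E⁄Qbar) x₁ = dblNum (E⁄Qbar) x₁ ∧
      x₁ * dblDen (E⁄Qbar) x₂ = dblNum (E⁄Qbar) x₂ := by
  have hEK : (E⁄Qbar).IsElliptic := galois_isElliptic_baseChange E
  have : Fact (Nat.Prime 5) := ⟨Nat.prime_five⟩
  obtain ⟨hfin, hcard⟩ := five_torsion_card (E⁄Qbar)
  have hfinT : Finite (galTors E 5) := galois_tors_finite_of E 5 hfin
  have hcardT : Nat.card (galTors E 5) < 5 ^ 3 := by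
    rw [galois_tors_card_eq E 5]; omega
  have hnontriv : Nontrivial (galTors E 5) := by
    obtain ⟨P, hP0, hP5⟩ := hex5
    refine ⟨⟨⟨P, (galois_mem_tors_iff E 5 P).mpr hP5⟩, 0, fun h => hP0 ?_⟩⟩
    exact congrArg Subtype.val h
  have hex : ∃ N : Submodule (ZMod 5) (galTors E 5),
      IsGaloisStable ℚ N ∧ N ≠ ⊥ ∧ N ≠ ⊤ := by
    by_contra hcon
    apply hirr
    refine ⟨hnontriv, fun N hN => ?_⟩
    by_contra hN'
    push Not at hN'
    exact hcon ⟨N, hN, hN'.1, hN'.2⟩
  obtain ⟨N, hstable, hbot, htop⟩ := hex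
  obtain ⟨P, hPN, hP0, hgen⟩ := galois_exists_generator_of_card_lt hcardT N hbot htop
  obtain ⟨P0, hP0mem⟩ := P
  have hP5 : 5 • P0 = 0 := (galois_mem_tors_iff E 5 P0).mp hP0mem
  have hP0ne : P0 ≠ 0 := fun h => hP0 (Subtype.ext h)
  rcases P0 with _ | ⟨x, y, hxy⟩
  · exact absurd rfl hP0ne
  obtain ⟨x₂, y₂, h₂, h2P, hne, hd1, hd2, hr1, hr2⟩ := five_torsion_data (E⁄Qbar) hxy hP5
  -- multiples of `A = P0` in terms of `A` and `B = 2 • A`
  set A : (E⁄Qbar).Point := Point.some x y hxy with hA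
  set B : (E⁄Qbar).Point := Point.some x₂ y₂ h₂ with hB
  have h3 : 3 • A = -B := by
    rw [← h2P, eq_neg_iff_add_eq_zero, ← add_nsmul]; exact hP5
  have h4 : 4 • A = -A := by
    rw [eq_neg_iff_add_eq_zero]
    nth_rewrite 2 [← one_nsmul A]
    rw [← add_nsmul]; exact hP5
  have h6 : 6 • A = A := by
    have : 6 • A = 5 • A + A := by rw [succ_nsmul]
    rw [this, hP5, zero_add]
  have h8 : 8 • A = -B := by
    have : 8 • A = 5 • A + 3 • A := by rw [← add_nsmul]
    rw [this, hP5, zero_add, h3]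
  -- Galois action
  have hfix : ∀ σ : Qbar ≃ₐ[ℚ] Qbar, (σ x = x ∧ σ x₂ = x₂) ∨ (σ x = x₂ ∧ σ x₂ = x) := by
    intro σ
    obtain ⟨c, hc⟩ := hgen _ (hstable σ _ hPN)
    have hc' := congrArg Subtype.val hc
    obtain ⟨h', hσ⟩ := galois_smul_some E σ hxy
    obtain ⟨h₂', hσ₂⟩ := galois_smul_some E σ h₂
    have hσP : (((σ • (⟨Point.some x y hxy, hP0mem⟩ : galTors E 5) : galTors E 5)) :
        (E⁄Qbar).Point) = Point.some (σ x) (σ y) h' := hσ
    rw [hσP] at hc'
    have hck : c = ((c.val : ℕ) : ZMod 5) := (ZMod.natCast_zmod_val c).symm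
    rw [hck, Nat.cast_smul_eq_nsmul] at hc'
    have hlt : c.val < 5 := ZMod.val_lt c
    rw [AddSubmonoidClass.coe_nsmul] at hc'
    change Point.some (σ x) (σ y) h' = c.val • A at hc'
    -- the image of `B`
    have hσB : Point.some (σ x₂) (σ y₂) h₂' = (2 * c.val) • A := by
      calc Point.some (σ x₂) (σ y₂) h₂' = σ • B := hσ₂.symm
        _ = σ • (2 • A) := by rw [h2P]
        _ = 2 • (σ • A) := map_nsmul (DistribSMul.toAddMonoidHom (E⁄Qbar).Point σ) 2 A
        _ = 2 • (c.val • A) := by rw [hσ, hc']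
        _ = (2 * c.val) • A := (mul_nsmul' A 2 c.val).symm
    interval_cases c.val
    · rw [zero_nsmul] at hc'
      exact absurd hc' (Point.some_ne_zero _)
    · rw [one_nsmul] at hc'
      rw [show (2 * 1) • A = B from h2P] at hσB
      exact Or.inl ⟨galois_X_eq_of_eq_or_eq_neg E (Or.inl hc'),
        galois_X_eq_of_eq_or_eq_neg E (Or.inl hσB)⟩
    · rw [h2P] at hc'
      rw [show (2 * 2) • A = -A from h4] at hσB
      exact Or.inr ⟨galois_X_eq_of_eq_or_eq_neg E (Or.inl hc'),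
        galois_X_eq_of_eq_or_eq_neg E (Or.inr hσB)⟩
    · rw [h3] at hc'
      rw [show (2 * 3) • A = A from h6] at hσB
      exact Or.inr ⟨galois_X_eq_of_eq_or_eq_neg E (Or.inr hc'),
        galois_X_eq_of_eq_or_eq_neg E (Or.inl hσB)⟩
    · rw [h4] at hc'
      rw [show (2 * 4) • A = -B from h8] at hσB
      exact Or.inl ⟨galois_X_eq_of_eq_or_eq_neg E (Or.inr hc'),
        galois_X_eq_of_eq_or_eq_neg E (Or.inr hσB)⟩
  obtain ⟨s₁, hs₁⟩ := galois_exists_rat_of_fixed (x + x₂) (fun σ => by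
    rcases hfix σ with ⟨h1, h2⟩ | ⟨h1, h2⟩ <;> rw [map_add, h1, h2]
    exact add_comm _ _)
  obtain ⟨s₂, hs₂⟩ := galois_exists_rat_of_fixed (x * x₂) (fun σ => by
    rcases hfix σ with ⟨h1, h2⟩ | ⟨h1, h2⟩ <;> rw [map_mul, h1, h2]
    exact mul_comm _ _)
  exact ⟨x, x₂, s₁, s₂, hs₁.symm, hs₂.symm, hne.symm, hd1, hd2, hr1, hr2⟩

end Curve

end Fermat.Agent.S51
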