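import Fermat.Agent.S51.Basic

set_option autoImplicit false

namespace Fermat.Agent.S51

open WeierstrassCurve

section Criterion

variable {F : Type*} [Field F] [DecidableEq F]

/-- A criterion for a point to be of order five, in terms of its `x`-coordinate only. -/
theorem five_nsmul_eq_zero_of_dbl (W : WeierstrassCurve F) {x₀ y₀ x₂ : F}
    (h : W.toAffine.Nonsingular x₀ y₀) (hd0 : dblDen W x₀ ≠ 0)
    (h02 : x₂ * dblDen W x₀ = dblNum W x₀) (hd2 : dblDen W x₂ ≠ 0)
    (h20 : x₀ * dblDen W x₂ = dblNum W x₂) (hne : x₂ ≠ x₀) :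
    (5 : ℕ) • (Affine.Point.some x₀ y₀ h) = 0 := by
  obtain ⟨x', y', h', h2P, hx'⟩ := two_nsmul_some_of_dblDen_ne W h hd0
  have hx'2 : x' = x₂ := by
    have : x' * dblDen W x₀ = x₂ * dblDen W x₀ := by rw [hx', h02]
    exact mul_right_cancel₀ hd0 this
  subst hx'2
  obtain ⟨x'', y'', h'', h4P, hx''⟩ := two_nsmul_some_of_dblDen_ne W h' hd2
  have hx''0 : x'' = x₀ := by
    have : x'' * dblDen W x' = x₀ * dblDen W x' := by rw [hx'', h20]
    exact mul_right_cancel₀ hd2 this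
  subst hx''0
  have h4 : (4 : ℕ) • (Affine.Point.some x'' y₀ h) = Affine.Point.some x'' y'' h'' := by
    have : (4 : ℕ) • (Affine.Point.some x'' y₀ h)
        = (2 : ℕ) • ((2 : ℕ) • (Affine.Point.some x'' y₀ h)) := by rw [← mul_nsmul]
    rw [this, h2P, h4P]
  rcases (Affine.Point.X_eq_iff (h₁ := h'') (h₂ := h)).mp rfl with heq | heq
  · -- 4P = P, so 3P = 0, so 2P = -P and x(2P) = x(P)
    exfalso
    have h4' : (4 : ℕ) • (Affine.Point.some x'' y₀ h) = Affine.Point.some x'' y₀ h := by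
      rw [h4, heq]
    have h3 : (3 : ℕ) • (Affine.Point.some x'' y₀ h) = 0 := by
      have e : (4 : ℕ) • (Affine.Point.some x'' y₀ h)
          = (3 : ℕ) • (Affine.Point.some x'' y₀ h) + Affine.Point.some x'' y₀ h := by
        rw [show (4 : ℕ) = 3 + 1 from rfl, add_nsmul, one_nsmul]
      rw [e] at h4'
      exact right_eq_add.mp h4'.symm
    have h2 : (2 : ℕ) • (Affine.Point.some x'' y₀ h) = -(Affine.Point.some x'' y₀ h) := by
      have e : (3 : ℕ) • (Affine.Point.some x'' y₀ h)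
          = (2 : ℕ) • (Affine.Point.some x'' y₀ h) + Affine.Point.some x'' y₀ h := by
        rw [show (3 : ℕ) = 2 + 1 from rfl, add_nsmul, one_nsmul]
      rw [e] at h3
      exact eq_neg_of_add_eq_zero_left h3
    rw [h2P, Affine.Point.neg_some] at h2
    injection h2 with hx _
    exact hne hx
  · -- 4P = -P
    have : (5 : ℕ) • (Affine.Point.some x'' y₀ h)
        = (4 : ℕ) • (Affine.Point.some x'' y₀ h) + Affine.Point.some x'' y₀ h := by
      rw [show (5 : ℕ) = 4 + 1 from rfl, add_nsmul, one_nsmul]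
    rw [this, h4, heq, neg_add_cancel]

end Criterion

section Covariance

variable {F : Type*} [Field F]

/-- Covariance of the doubling denominator under a change of variables. -/
theorem dblDen_variableChange (C : VariableChange F) (W : WeierstrassCurve F) (x : F) :
    dblDen (C • W) x = ((C.u⁻¹ : Fˣ) : F) ^ 6 * dblDen W ((C.u : F) ^ 2 * x + C.r) := by
  have hu : (C.u : F) ≠ 0 := C.u.ne_zero
  simp only [dblDen, variableChange_b₂, variableChange_b₄, variableChange_b₆,
    Units.val_inv_eq_inv_val]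
  field_simp
  ring

/-- Covariance of the doubling numerator under a change of variables. -/
theorem dblNum_variableChange (C : VariableChange F) (W : WeierstrassCurve F) (x : F) :
    dblNum (C • W) x = ((C.u⁻¹ : Fˣ) : F) ^ 8 *
      (dblNum W ((C.u : F) ^ 2 * x + C.r) - C.r * dblDen W ((C.u : F) ^ 2 * x + C.r)) := by
  have hu : (C.u : F) ≠ 0 := C.u.ne_zero
  simp only [dblNum, dblDen, variableChange_b₄, variableChange_b₆,
    variableChange_b₈, Units.val_inv_eq_inv_val]
  field_simp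
  ring

end Covariance

section Tate

variable {F : Type*} [Field F]

/-- Tate normal form of a curve with the point `(0, 0)` of order five:
`y² + (1 - b)xy - by = x³ - bx²`. -/
def tateCurve (b : F) : WeierstrassCurve F := ⟨1 - b, -b, -b, 0, 0⟩

theorem tateCurve_b₂ (b : F) : (tateCurve b).b₂ = b ^ 2 - 6 * b + 1 := by
  simp only [tateCurve, WeierstrassCurve.b₂]; ring

theorem tateCurve_b₄ (b : F) : (tateCurve b).b₄ = b ^ 2 - b := by
  simp only [tateCurve, WeierstrassCurve.b₄]; ring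

theorem tateCurve_b₆ (b : F) : (tateCurve b).b₆ = b ^ 2 := by
  simp only [tateCurve, WeierstrassCurve.b₆]; ring

theorem tateCurve_b₈ (b : F) : (tateCurve b).b₈ = -b ^ 3 := by
  simp only [tateCurve, WeierstrassCurve.b₈]; ring

theorem tateCurve_Δ (b : F) : (tateCurve b).Δ = b ^ 5 * (b ^ 2 - 11 * b - 1) := by
  simp only [WeierstrassCurve.Δ, tateCurve_b₂, tateCurve_b₄, tateCurve_b₆, tateCurve_b₈]; ring

theorem tateCurve_c₄ (b : F) :
    (tateCurve b).c₄ = b ^ 4 - 12 * b ^ 3 + 14 * b ^ 2 + 12 * b + 1 := by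
  simp only [WeierstrassCurve.c₄, tateCurve_b₂, tateCurve_b₄]; ring

theorem tateCurve_dblDen_zero (b : F) : dblDen (tateCurve b) 0 = b ^ 2 := by
  simp only [dblDen, tateCurve_b₂, tateCurve_b₄, tateCurve_b₆]; ring

theorem tateCurve_dblNum_zero (b : F) : dblNum (tateCurve b) 0 = b ^ 3 := by
  simp only [dblNum, tateCurve_b₄, tateCurve_b₆, tateCurve_b₈]; ring

theorem tateCurve_dblDen_self (b : F) : dblDen (tateCurve b) b = b ^ 4 := by
  simp only [dblDen, tateCurve_b₂, tateCurve_b₄, tateCurve_b₆]; ring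

theorem tateCurve_dblNum_self (b : F) : dblNum (tateCurve b) b = 0 := by
  simp only [dblNum, tateCurve_b₄, tateCurve_b₆, tateCurve_b₈]; ring

end Tate

section Main

variable {F : Type*} [Field F]

open Polynomial in
/-- Over an algebraically closed field of characteristic zero, every `j`-invariant is attained
by a nonsingular curve in Tate normal form. -/
theorem exists_tate_param [CharZero F] [IsAlgClosed F] (j₀ : F) :
    ∃ b : F, b ≠ 0 ∧ b ^ 5 * (b ^ 2 - 11 * b - 1) ≠ 0 ∧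
      (b ^ 4 - 12 * b ^ 3 + 14 * b ^ 2 + 12 * b + 1) ^ 3
        = j₀ * (b ^ 5 * (b ^ 2 - 11 * b - 1)) := by
  have hdeg : ((X ^ 4 - 12 * X ^ 3 + 14 * X ^ 2 + 12 * X + 1 : F[X]) ^ 3
      - C j₀ * (X ^ 5 * (X ^ 2 - 11 * X - 1))).natDegree = 12 := by
    compute_degree!
  have hdeg' : ((X ^ 4 - 12 * X ^ 3 + 14 * X ^ 2 + 12 * X + 1 : F[X]) ^ 3
      - C j₀ * (X ^ 5 * (X ^ 2 - 11 * X - 1))).degree ≠ 0 := by
    intro h0
    have := natDegree_eq_of_degree_eq_some h0
    rw [hdeg] at this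
    norm_num at this
  obtain ⟨b, hb⟩ := IsAlgClosed.exists_root _ hdeg'
  have hb' : (b ^ 4 - 12 * b ^ 3 + 14 * b ^ 2 + 12 * b + 1) ^ 3
      = j₀ * (b ^ 5 * (b ^ 2 - 11 * b - 1)) := by
    have : (b ^ 4 - 12 * b ^ 3 + 14 * b ^ 2 + 12 * b + 1) ^ 3
        - j₀ * (b ^ 5 * (b ^ 2 - 11 * b - 1)) = 0 := by
      simpa [IsRoot.def] using hb
    exact sub_eq_zero.mp this
  have hb0 : b ≠ 0 := by
    rintro rfl
    norm_num at hb'
  refine ⟨b, hb0, ?_, hb'⟩
  intro hΔ
  have hq : b ^ 2 - 11 * b - 1 = 0 := by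
    rcases mul_eq_zero.mp hΔ with h | h
    · exact absurd (pow_eq_zero_iff (by norm_num) |>.mp h) hb0
    · exact h
  rw [hΔ, mul_zero] at hb'
  have hc4 : b ^ 4 - 12 * b ^ 3 + 14 * b ^ 2 + 12 * b + 1 = 0 :=
    pow_eq_zero_iff (by norm_num) |>.mp hb'
  have h5 : (5 : F) * b ^ 2 = 0 := by
    have : b ^ 4 - 12 * b ^ 3 + 14 * b ^ 2 + 12 * b + 1
        = (b ^ 2 - 11 * b - 1) * (b ^ 2 - b - 1) + 5 * b ^ 2 := by ring
    rw [this, hq, zero_mul, zero_add] at hc4
    exact hc4
  rcases mul_eq_zero.mp h5 with h | h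
  · exact absurd h (by norm_num)
  · exact hb0 (pow_eq_zero_iff (by norm_num) |>.mp h)

variable [DecidableEq F]

/-- Transport of the order-five criterion along a change of variables from the Tate normal
form. -/
theorem exists_five_torsion_of_variableChange [IsAlgClosed F] (W : WeierstrassCurve F)
    [W.IsElliptic] (b : F) (hb : b ≠ 0) (C : VariableChange F) (hC : C • tateCurve b = W) :
    ∃ P : W.toAffine.Point, P ≠ 0 ∧ (5 : ℕ) • P = 0 := by
  subst hC
  have hu : (C.u : F) ≠ 0 := C.u.ne_zero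
  set x₀ : F := (0 - C.r) / (C.u : F) ^ 2 with hx₀
  set x₂ : F := (b - C.r) / (C.u : F) ^ 2 with hx₂
  have e₀ : (C.u : F) ^ 2 * x₀ + C.r = 0 := by rw [hx₀]; field_simp; ring
  have e₂ : (C.u : F) ^ 2 * x₂ + C.r = b := by rw [hx₂]; field_simp; ring
  have hui : ((C.u⁻¹ : Fˣ) : F) ≠ 0 := (C.u⁻¹).ne_zero
  have hd0 : dblDen (C • tateCurve b) x₀ = ((C.u⁻¹ : Fˣ) : F) ^ 6 * b ^ 2 := by
    rw [dblDen_variableChange, e₀, tateCurve_dblDen_zero]
  have hd2 : dblDen (C • tateCurve b) x₂ = ((C.u⁻¹ : Fˣ) : F) ^ 6 * b ^ 4 := by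
    rw [dblDen_variableChange, e₂, tateCurve_dblDen_self]
  have hn0 : dblNum (C • tateCurve b) x₀ = ((C.u⁻¹ : Fˣ) : F) ^ 8 * (b ^ 3 - C.r * b ^ 2) := by
    rw [dblNum_variableChange, e₀, tateCurve_dblNum_zero, tateCurve_dblDen_zero]
  have hn2 : dblNum (C • tateCurve b) x₂ = ((C.u⁻¹ : Fˣ) : F) ^ 8 * (0 - C.r * b ^ 4) := by
    rw [dblNum_variableChange, e₂, tateCurve_dblNum_self, tateCurve_dblDen_self]
  -- a `y`-coordinate above `x₀`
  obtain ⟨y₀, hy₀⟩ : ∃ y₀ : F, (C • tateCurve b).toAffine.Equation x₀ y₀ := by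
    obtain ⟨y₀, hy₀⟩ := IsAlgClosed.exists_root
      (Polynomial.X ^ 2 + Polynomial.C ((C • tateCurve b).a₁ * x₀ + (C • tateCurve b).a₃)
          * Polynomial.X
        - Polynomial.C (x₀ ^ 3 + (C • tateCurve b).a₂ * x₀ ^ 2 + (C • tateCurve b).a₄ * x₀
          + (C • tateCurve b).a₆) : Polynomial F)
      (by
        have : (Polynomial.X ^ 2
          + Polynomial.C ((C • tateCurve b).a₁ * x₀ + (C • tateCurve b).a₃) * Polynomial.X
          - Polynomial.C (x₀ ^ 3 + (C • tateCurve b).a₂ * x₀ ^ 2 + (C • tateCurve b).a₄ * x₀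
            + (C • tateCurve b).a₆) : Polynomial F).natDegree = 2 := by
          compute_degree!
        intro h0
        have h1 := Polynomial.natDegree_eq_of_degree_eq_some h0
        rw [this] at h1
        norm_num at h1)
    refine ⟨y₀, ?_⟩
    rw [Affine.equation_iff]
    have : y₀ ^ 2 + ((C • tateCurve b).a₁ * x₀ + (C • tateCurve b).a₃) * y₀
        - (x₀ ^ 3 + (C • tateCurve b).a₂ * x₀ ^ 2 + (C • tateCurve b).a₄ * x₀
          + (C • tateCurve b).a₆) = 0 := by
      simpa [Polynomial.IsRoot.def] using hy₀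
    linear_combination this
  have hns : (C • tateCurve b).toAffine.Nonsingular x₀ y₀ :=
    (Affine.equation_iff_nonsingular (W := (C • tateCurve b))).mp hy₀
  refine ⟨Affine.Point.some x₀ y₀ hns, Affine.Point.some_ne_zero _, ?_⟩
  refine five_nsmul_eq_zero_of_dbl (C • tateCurve b) (x₂ := x₂) hns ?_ ?_ ?_ ?_ ?_
  · rw [hd0]; exact mul_ne_zero (pow_ne_zero _ hui) (pow_ne_zero _ hb)
  · rw [hd0, hn0, hx₂, Units.val_inv_eq_inv_val]; field_simp
  · rw [hd2]; exact mul_ne_zero (pow_ne_zero _ hui) (pow_ne_zero _ hb)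
  · rw [hd2, hn2, hx₀, Units.val_inv_eq_inv_val]; field_simp; ring
  · intro heq
    have : (C.u : F) ^ 2 * x₂ + C.r = (C.u : F) ^ 2 * x₀ + C.r := by rw [heq]
    rw [e₀, e₂] at this
    exact hb this

/-- **Piece T5b.** An elliptic curve over an algebraically closed field of characteristic zero
has a point of exact order five. -/
theorem exists_five_torsion [CharZero F] (W : WeierstrassCurve F)
    [W.IsElliptic] [IsAlgClosed F] : ∃ P : W.toAffine.Point, P ≠ 0 ∧ (5 : ℕ) • P = 0 := by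
  obtain ⟨b, hb0, hΔ, hj⟩ := exists_tate_param (F := F) W.j
  have hΔ' : (tateCurve b).Δ ≠ 0 := by rw [tateCurve_Δ]; exact hΔ
  have : (tateCurve b).IsElliptic := ⟨isUnit_iff_ne_zero.mpr hΔ'⟩
  have hjeq : (tateCurve b).j = W.j := by
    rw [WeierstrassCurve.j, Units.val_inv_eq_inv_val, coe_Δ', tateCurve_Δ, tateCurve_c₄, hj,
      mul_comm W.j, inv_mul_cancel_left₀ hΔ]
  obtain ⟨C, hC⟩ := exists_variableChange_of_j_eq (tateCurve b) W hjeq
  exact exists_five_torsion_of_variableChange W b hb0 C hC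

end Main

end Fermat.Agent.S51
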