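import Fermat.Agent.S51.X015Induct

set_option autoImplicit false

namespace Fermat.Agent.S51

/-- There is no rational `a` with `a²`, `a² - 1` and `a² - 81` all rational squares. -/
theorem x015_no_three_squares {a b c : ℚ} (hb : b ^ 2 = a ^ 2 - 1) (hc : c ^ 2 = a ^ 2 - 81) :
    False := by
  set u : ℤ := a.num with hu
  set w : ℤ := (a.den : ℤ) with hw
  have hw0 : 0 < w := by rw [hw]; exact_mod_cast a.den_pos
  have hwq : (w : ℚ) ≠ 0 := by exact_mod_cast hw0.ne'
  have hauw : a = (u : ℚ) / (w : ℚ) := by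
    rw [hu, hw]; push_cast; exact (Rat.num_div_den a).symm
  have hcop : IsCoprime u w := by
    rw [Int.isCoprime_iff_gcd_eq_one, hu, hw]
    exact a.reduced
  obtain ⟨v, -, hv⟩ := x015_int_of_sq_int (T := b * w) (z := u ^ 2 - w ^ 2) (by
    push_cast; rw [mul_pow, hb, hauw]; field_simp)
  obtain ⟨t, -, ht⟩ := x015_int_of_sq_int (T := c * w) (z := u ^ 2 - 81 * w ^ 2) (by
    push_cast; rw [mul_pow, hc, hauw]; field_simp)
  exact x015_descent_aux u.natAbs u w v t rfl hw0 hcop hv ht

/-- Every rational point of `y² = x (x - 1) (x - 81)` has `y = 0` (rank `0`, torsion `ℤ/2 × ℤ/2`). -/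
theorem x015_isogenous_points {x y : ℚ} (h : y ^ 2 = x * (x - 1) * (x - 81)) : y = 0 := by
  by_contra hy
  obtain ⟨⟨ρ, hρ⟩, d, hd, τ, hτ⟩ := x015_selmer_rat hy h
  have hρ0 : ρ ≠ 0 := by
    rintro rfl
    apply hy
    have : y ^ 2 = 0 := by rw [h, hρ]; ring
    exact pow_eq_zero_iff (two_ne_zero) |>.mp this
  have hx1 : x - 1 ≠ 0 := by
    intro h0
    apply hy
    have : y ^ 2 = 0 := by rw [h, h0]; ring
    exact pow_eq_zero_iff (two_ne_zero) |>.mp this
  have hτ0 : τ ≠ 0 := by
    rintro rfl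
    apply hx1
    rcases hd with rfl | rfl | rfl | rfl <;> linarith
  rcases hd with rfl | rfl | rfl | rfl
  · -- class (1, 1)
    refine x015_no_three_squares (a := ρ) (b := τ) (c := y / (ρ * τ)) ?_ ?_
    · grind
    · grind
  · -- class (1, -1): translate by (0, 0)
    refine x015_no_three_squares (a := 9 / ρ) (b := y / (ρ ^ 2 * τ)) (c := 9 * τ / ρ) ?_ ?_
    · grind
    · grind
  · -- class (1, 5): translate by (81, 0)
    refine x015_no_three_squares (a := 9 * ρ * τ ^ 2 / (5 * y)) (b := 4 * ρ ^ 2 * τ / y)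
      (c := 36 * ρ * τ / y) ?_ ?_
    · grind
    · grind
  · -- class (1, -5): translate by (1, 0)
    refine x015_no_three_squares (a := 5 * y / (ρ * τ ^ 2)) (b := 20 / τ) (c := 20 * ρ / τ) ?_ ?_
    · grind
    · grind

/-- The rational points of the elliptic curve `15a1 : Y² = X (X + 9) (X - 16)`
(a model of `X₀(15)`): the affine ones have `X ∈ {0, -9, 16, 36, -4}`. -/
theorem rational_points_X0_15 (X Y : ℚ) (h : Y ^ 2 = X * (X + 9) * (X - 16)) :
    X = 0 ∨ X = -9 ∨ X = 16 ∨ X = 36 ∨ X = -4 := by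
  by_cases h16 : X - 16 = 0
  · right; right; left; linarith
  -- image under the 2-isogeny with kernel generated by (16, 0)
  have hiso : (Y * (400 - (X - 16) ^ 2) / (X - 16) ^ 2) ^ 2 =
      (Y ^ 2 / (X - 16) ^ 2) * (Y ^ 2 / (X - 16) ^ 2 - 1) * (Y ^ 2 / (X - 16) ^ 2 - 81) := by
    grind
  have h0 := x015_isogenous_points hiso
  have h1 : Y * (400 - (X - 16) ^ 2) = 0 := by
    have h2 : (X - 16) ^ 2 ≠ 0 := pow_ne_zero 2 h16
    rcases div_eq_zero_iff.mp h0 with h3 | h3
    · exact h3
    · exact absurd h3 h2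
  rcases mul_eq_zero.mp h1 with hY | hX
  · rw [hY] at h
    have h3 : X * (X + 9) * (X - 16) = 0 := by rw [← h]; ring
    rcases mul_eq_zero.mp h3 with h4 | h4
    · rcases mul_eq_zero.mp h4 with h5 | h5
      · left; exact h5
      · right; left; linarith
    · exact absurd h4 h16
  · have h3 : (X - 36) * (X + 4) = 0 := by linear_combination -hX
    rcases mul_eq_zero.mp h3 with h4 | h4
    · right; right; right; left; linarith
    · right; right; right; right; linarith

end Fermat.Agent.S51
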