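import Fermat.Agent.S51.Basic

set_option autoImplicit false

namespace Fermat.Agent.S51

open WeierstrassCurve

section Core

variable {K : Type*} [Field K]

/-- discriminant in terms of b-quantities -/
def discB (b₂ b₄ b₆ b₈ : K) : K :=
  -b₂ ^ 2 * b₈ - 8 * b₄ ^ 3 - 27 * b₆ ^ 2 + 9 * b₂ * b₄ * b₆

/-- core parametrisation: translated coordinates, `x₁ = 0`, `x₂ = δ`. -/
theorem core_param (c₂ c₄ c₆ c₈ δ : K)
    (h8 : 4 * c₈ = c₂ * c₆ - c₄ ^ 2)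
    (hδ : δ ≠ 0) (h6 : c₆ ≠ 0)
    (hD1 : c₈ = -δ * c₆)
    (hD2 : δ ^ 4 - c₄ * δ ^ 2 - 2 * c₆ * δ - c₈ = 0) :
    ∃ e : K, e ≠ 0 ∧ c₆ = δ * e ∧ c₄ = δ ^ 2 - e ∧ c₈ = -δ ^ 2 * e ∧
      c₂ * (δ * e) = (δ ^ 2 - e) ^ 2 - 4 * δ ^ 2 * e := by
  have h6' : c₆ = δ * (δ ^ 2 - c₄) := by
    have : δ * (δ ^ 3 - c₄ * δ - c₆) = 0 := by rw [hD1] at hD2; linear_combination hD2
    rcases mul_eq_zero.mp this with h | h
    · exact absurd h hδ
    · linear_combination -h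
  refine ⟨δ ^ 2 - c₄, ?_, h6', by ring, ?_, ?_⟩
  · intro h; apply h6; rw [h6', h]; ring
  · rw [hD1, h6']; ring
  · rw [hD1, h6'] at h8; linear_combination (-1 : K) * h8

theorem core_rel (δ e ρ c₂ : K) (hδ : δ ≠ 0) (he : e ≠ 0) (h2 : (2 : K) ≠ 0)
    (hc₂ : c₂ * (δ * e) = (δ ^ 2 - e) ^ 2 - 4 * δ ^ 2 * e)
    (hρ : 3 * ρ ^ 4 + c₂ * ρ ^ 3 + 3 * (δ ^ 2 - e) * ρ ^ 2 + 3 * (δ * e) * ρ + (-δ ^ 2 * e) = 0) :
    let W := (2 * ρ - δ) ^ 2 / δ ^ 2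
    let t := discB c₂ (δ ^ 2 - e) (δ * e) (-δ ^ 2 * e) / δ ^ 6
    let z := (2 * ρ - δ) * (6 * δ + c₂) / δ ^ 2
    (W + 3) * z + (3 * W + 1) * (t + 11) + 3 / 2 * (W - 1) ^ 2 = 0 ∧
      z ^ 2 = W * ((t + 11) ^ 2 + 4) ∧
      c₂ ^ 2 - 24 * (δ ^ 2 - e) = δ ^ 2 * (t ^ 2 + 10 * t + 5) := by
  intro W t z
  have hc₂' : c₂ = ((δ ^ 2 - e) ^ 2 - 4 * δ ^ 2 * e) / (δ * e) := by
    field_simp; linear_combination hc₂
  have ht : t = (δ ^ 4 - 11 * δ ^ 2 * e - e ^ 2) / (δ ^ 2 * e) := by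
    simp only [t, discB, hc₂']
    field_simp
    ring
  refine ⟨?_, ?_, ?_⟩
  · rw [ht]
    simp only [W, z, hc₂']
    rw [hc₂'] at hρ
    have hρ' : 3 * (δ * e) * ρ ^ 4 + ((δ ^ 2 - e) ^ 2 - 4 * δ ^ 2 * e) * ρ ^ 3 +
        3 * (δ * e) * (δ ^ 2 - e) * ρ ^ 2 + 3 * (δ * e) ^ 2 * ρ - δ ^ 3 * e ^ 2 = 0 := by
      field_simp at hρ
      linear_combination hρ
    have key : ((2 * ρ - δ) ^ 2 / δ ^ 2 + 3) *
          ((2 * ρ - δ) * (6 * δ + ((δ ^ 2 - e) ^ 2 - 4 * δ ^ 2 * e) / (δ * e)) / δ ^ 2) +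
        (3 * ((2 * ρ - δ) ^ 2 / δ ^ 2) + 1) *
          ((δ ^ 4 - 11 * δ ^ 2 * e - e ^ 2) / (δ ^ 2 * e) + 11) +
        3 / 2 * ((2 * ρ - δ) ^ 2 / δ ^ 2 - 1) ^ 2 =
        8 * (3 * (δ * e) * ρ ^ 4 + ((δ ^ 2 - e) ^ 2 - 4 * δ ^ 2 * e) * ρ ^ 3 +
          3 * (δ * e) * (δ ^ 2 - e) * ρ ^ 2 + 3 * (δ * e) ^ 2 * ρ - δ ^ 3 * e ^ 2) /
          (δ ^ 5 * e) := by
      field_simp
      ring
    rw [key, hρ']; simp
  · rw [ht]
    simp only [W, z, hc₂']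
    field_simp
    ring
  · rw [ht, hc₂']
    field_simp
    ring

end Core

section Data

variable {K : Type*} [Field K] (W : WeierstrassCurve K)

lemma dblDen_add (x h : K) : dblDen W (x + h) =
    4 * h ^ 3 + (W.b₂ + 12 * x) * h ^ 2 + 2 * (W.b₄ + x * W.b₂ + 6 * x ^ 2) * h + dblDen W x := by
  simp only [dblDen]; ring

lemma dblNum_add (x h : K) : dblNum W (x + h) - x * dblDen W (x + h) =
    h ^ 4 - (W.b₄ + x * W.b₂ + 6 * x ^ 2) * h ^ 2 - 2 * dblDen W x * h - triPoly W x := by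
  simp only [dblDen, dblNum, triPoly]; ring

lemma triPoly_add (x h : K) : triPoly W (x + h) =
    3 * h ^ 4 + (W.b₂ + 12 * x) * h ^ 3 + 3 * (W.b₄ + x * W.b₂ + 6 * x ^ 2) * h ^ 2 +
      3 * dblDen W x * h + triPoly W x := by
  simp only [dblDen, triPoly]; ring

lemma disc_translate (x : K) : W.Δ =
    discB (W.b₂ + 12 * x) (W.b₄ + x * W.b₂ + 6 * x ^ 2) (dblDen W x) (triPoly W x) := by
  simp only [discB, dblDen, triPoly, WeierstrassCurve.Δ, b₂, b₄, b₆, b₈]; ring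

lemma c4_translate (x : K) : W.c₄ =
    (W.b₂ + 12 * x) ^ 2 - 24 * (W.b₄ + x * W.b₂ + 6 * x ^ 2) := by
  simp only [WeierstrassCurve.c₄]; ring

lemma b_rel_translate (x : K) : 4 * triPoly W x =
    (W.b₂ + 12 * x) * dblDen W x - (W.b₄ + x * W.b₂ + 6 * x ^ 2) ^ 2 := by
  simp only [dblDen, triPoly, b₂, b₄, b₆, b₈]; ring

/-- The key relations on `X₀(15)` derived from a 3-torsion abscissa `r` and a 5-torsion pair
`x₁, x₂` of abscissas swapped by duplication. -/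
theorem rel_of_data (h2 : (2 : K) ≠ 0) (x₁ x₂ r : K) (hne : x₁ ≠ x₂)
    (hd1 : dblDen W x₁ ≠ 0)
    (hD1 : x₂ * dblDen W x₁ = dblNum W x₁) (hD2 : x₁ * dblDen W x₂ = dblNum W x₂)
    (hr : triPoly W r = 0) :
    let d := (x₁ - x₂) ^ 2
    let s₁ := x₁ + x₂
    let Wq := (2 * r - s₁) ^ 2 / d
    let t := W.Δ / d ^ 3
    let z := (2 * r - s₁) * (6 * s₁ + W.b₂) / d
    (Wq + 3) * z + (3 * Wq + 1) * (t + 11) + 3 / 2 * (Wq - 1) ^ 2 = 0 ∧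
      z ^ 2 = Wq * ((t + 11) ^ 2 + 4) ∧ W.c₄ = d * (t ^ 2 + 10 * t + 5) := by
  intro d s₁ Wq t z
  set δ := x₂ - x₁ with hδdef
  set ρ := r - x₁ with hρdef
  have hδ : δ ≠ 0 := sub_ne_zero.mpr (Ne.symm hne)
  have hx₂ : x₂ = x₁ + δ := by rw [hδdef]; ring
  have hr' : r = x₁ + ρ := by rw [hρdef]; ring
  set c₂ := W.b₂ + 12 * x₁ with hc₂def
  set c₄ := W.b₄ + x₁ * W.b₂ + 6 * x₁ ^ 2 with hc₄def
  set c₆ := dblDen W x₁ with hc₆def
  set c₈ := triPoly W x₁ with hc₈def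
  have h8 : 4 * c₈ = c₂ * c₆ - c₄ ^ 2 := b_rel_translate W x₁
  have hD1' : c₈ = -δ * c₆ := by
    rw [hc₈def, triPoly_eq, ← hD1, hδdef]; ring
  have hD2' : δ ^ 4 - c₄ * δ ^ 2 - 2 * c₆ * δ - c₈ = 0 := by
    have := dblNum_add W x₁ δ
    rw [← hx₂, ← hD2] at this
    rw [← this]; ring
  obtain ⟨e, he, h6e, h4e, h8e, hc2e⟩ := core_param c₂ c₄ c₆ c₈ δ h8 hδ hd1 hD1' hD2'
  have hρ : 3 * ρ ^ 4 + c₂ * ρ ^ 3 + 3 * (δ ^ 2 - e) * ρ ^ 2 + 3 * (δ * e) * ρ + (-δ ^ 2 * e) = 0 := by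
    have := triPoly_add W x₁ ρ
    rw [← hr', hr] at this
    rw [← h4e, ← h6e, ← h8e]
    linear_combination -this
  have key := core_rel δ e ρ c₂ hδ he h2 hc2e hρ
  simp only at key
  have hΔ : W.Δ = discB c₂ (δ ^ 2 - e) (δ * e) (-δ ^ 2 * e) := by
    rw [disc_translate W x₁, ← h4e, ← h6e, ← h8e]
  have hd : d = δ ^ 2 := by simp only [d, hδdef]; ring
  have hd6 : d ^ 3 = δ ^ 6 := by rw [hd]; ring
  have hWq : Wq = (2 * ρ - δ) ^ 2 / δ ^ 2 := by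
    simp only [Wq, s₁, hd, hρdef, hδdef]; ring
  have hz : z = (2 * ρ - δ) * (6 * δ + c₂) / δ ^ 2 := by
    simp only [z, s₁, hd, hρdef, hδdef, hc₂def]; ring
  have ht : t = discB c₂ (δ ^ 2 - e) (δ * e) (-δ ^ 2 * e) / δ ^ 6 := by
    simp only [t, hd6, hΔ]
  rw [hWq, hz, ht]
  refine ⟨key.1, key.2.1, ?_⟩
  have hc4 : W.c₄ = c₂ ^ 2 - 24 * c₄ := c4_translate W x₁
  rw [hc4, hd, ← key.2.2, h4e]

end Data

section Rat

theorem rat_main_aux (hE : ∀ X Y : ℚ, Y ^ 2 = X * (X + 9) * (X - 16) →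
      X = 0 ∨ X = -9 ∨ X = 16 ∨ X = 36 ∨ X = -4)
    (m τ z : ℚ)
    (hI : ((4 * m + 1) + 3) * z + (3 * (4 * m + 1) + 1) * τ + 3 / 2 * ((4 * m + 1) - 1) ^ 2 = 0)
    (hII : z ^ 2 = (4 * m + 1) * (τ ^ 2 + 4))
    (ht : τ ≠ 11) (hm0 : m ≠ 0) :
    τ = 1 ∨ τ = -29 ∨ τ = -3 / 2 ∨ τ = 63 / 8 := by
  have hQ : m ^ 3 * τ ^ 2 - 3 * m ^ 2 * (3 * m + 1) * τ - 9 * m ^ 4 + (4 * m + 1) * (m + 1) ^ 2 = 0 := by
    linear_combination (1 / 64 : ℚ) * (((4 * m + 1) + 3) * z - ((3 * (4 * m + 1) + 1) * τ + 3 / 2 * ((4 * m + 1) - 1) ^ 2)) * hI + (-1 / 64 : ℚ) * ((4 * m + 1) + 3) ^ 2 * hII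
  by_cases hm1 : m = -1
  · exfalso
    rw [hm1] at hI hII
    have hτ3 : τ = 3 := by linear_combination (-1 / 8 : ℚ) * hI
    rw [hτ3] at hII
    nlinarith [sq_nonneg z]
  · have hm1' : m + 1 ≠ 0 := fun h => hm1 (by linear_combination h)
    have hY : (36 * m * (2 * m * τ - 3 * (3 * m + 1)) / (m + 1)) ^ 2 =
        (36 * m) * (36 * m + 9) * (36 * m - 16) := by
      have h1 : m * (2 * m * τ - 3 * (3 * m + 1)) ^ 2 = (m + 1) ^ 2 * (9 * m - 4) * (4 * m + 1) := by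
        have : m ^ 3 * (m * (2 * m * τ - 3 * (3 * m + 1)) ^ 2 - (m + 1) ^ 2 * (9 * m - 4) * (4 * m + 1)) = 0 := by
          linear_combination (4 * m ^ 3) * hQ
        rcases mul_eq_zero.mp this with h | h
        · exact absurd (pow_eq_zero_iff (by norm_num) |>.mp h) hm0
        · linear_combination h
      field_simp
      linear_combination (36 : ℚ) * h1
    rcases hE _ _ hY with h | h | h | h | h
    · exfalso; apply hm0; linear_combination (1 / 36 : ℚ) * h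
    · have hmv : m = -1 / 4 := by linear_combination (1 / 36 : ℚ) * h
      rw [hmv] at hQ
      have : (2 * τ + 3) ^ 2 = 0 := by linear_combination (-256 : ℚ) * hQ
      have : 2 * τ + 3 = 0 := by simpa using this
      right; right; left
      linarith
    · have hmv : m = 4 / 9 := by linear_combination (1 / 36 : ℚ) * h
      rw [hmv] at hQ
      have : (8 * τ - 63) ^ 2 = 0 := by linear_combination (729 : ℚ) * hQ
      have : 8 * τ - 63 = 0 := by simpa using this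
      right; right; right
      linarith
    · have hmv : m = 1 := by linear_combination (1 / 36 : ℚ) * h
      rw [hmv] at hQ
      have : (τ - 1) * (τ - 11) = 0 := by linear_combination hQ
      rcases mul_eq_zero.mp this with h | h
      · left; linarith
      · exfalso; apply ht; linarith
    · have hmv : m = -1 / 9 := by linear_combination (1 / 36 : ℚ) * h
      rw [hmv] at hQ
      have : (τ - 11) * (τ + 29) = 0 := by linear_combination (-729 : ℚ) * hQ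
      rcases mul_eq_zero.mp this with h | h
      · exfalso; apply ht; linarith
      · right; left; linarith

end Rat

end Fermat.Agent.S51
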