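import Fermat.Agent.S51.X015SelmerRat

set_option autoImplicit false

namespace Fermat.Agent.S51

/-- If `x` and `x - 1` are squares on the curve (with `y ≠ 0`) then so is `x - 81`. -/
theorem x015_third_square {x y : ℚ} (hy : y ≠ 0) (h : y ^ 2 = x * (x - 1) * (x - 81))
    (h1 : IsSquare x) (h2 : IsSquare (x - 1)) : IsSquare (x - 81) := by
  obtain ⟨p, hp⟩ := h1
  obtain ⟨q, hq⟩ := h2
  have hp0 : p ≠ 0 := by
    rintro rfl
    apply hy
    have : y ^ 2 = 0 := by rw [h, hp]; ring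
    exact pow_eq_zero_iff (two_ne_zero) |>.mp this
  have hq0 : q ≠ 0 := by
    rintro rfl
    apply hy
    have : y ^ 2 = 0 := by rw [h, hq]; ring
    exact pow_eq_zero_iff (two_ne_zero) |>.mp this
  refine ⟨y / (p * q), ?_⟩
  have hpq : p * q ≠ 0 := mul_ne_zero hp0 hq0
  have h3 : y ^ 2 = (p * q) ^ 2 * (x - 81) := by
    rw [h]; nth_rewrite 1 [hp]; nth_rewrite 1 [hq]; ring
  field_simp
  linear_combination -h3

/-- Sign selection: from three rationals `a, b, c` with `b² = a² - 1`, `c² = a² - 81`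
one can flip the signs of `b`, `c` so that the halved point has all-square coordinates. -/
theorem x015_signs_rat {a b c : ℚ} (hb : b ^ 2 = a ^ 2 - 1) (hc : c ^ 2 = a ^ 2 - 81) :
    ∃ b' c' : ℚ, b' ^ 2 = a ^ 2 - 1 ∧ c' ^ 2 = a ^ 2 - 81 ∧
      IsSquare ((a + b') * (a + c')) ∧ IsSquare ((a + b') * (a + c') - 1) ∧
        IsSquare ((a + b') * (a + c') - 81) := by
  -- general facts valid for any admissible pair
  have key : ∀ b' c' : ℚ, b' ^ 2 = a ^ 2 - 1 → c' ^ 2 = a ^ 2 - 81 →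
      (a + b') * (a + c') * (b' + c') ≠ 0 ∧
      ((a + b') * (a + c') * (b' + c')) ^ 2 =
        ((a + b') * (a + c')) * ((a + b') * (a + c') - 1) * ((a + b') * (a + c') - 81) := by
    intro b' c' hb' hc'
    refine ⟨?_, ?_⟩
    · have h1 : a + b' ≠ 0 := by
        intro h0
        have : b' = -a := by linarith
        rw [this] at hb'; nlinarith
      have h2 : a + c' ≠ 0 := by
        intro h0
        have : c' = -a := by linarith
        rw [this] at hc'; nlinarith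
      have h3 : b' + c' ≠ 0 := by
        intro h0
        have : c' = -b' := by linarith
        rw [this] at hc'; nlinarith
      exact mul_ne_zero (mul_ne_zero h1 h2) h3
    · grind
  have third : ∀ b' c' : ℚ, b' ^ 2 = a ^ 2 - 1 → c' ^ 2 = a ^ 2 - 81 →
      IsSquare ((a + b') * (a + c')) → IsSquare ((a + b') * (a + c') - 1) →
      ∃ b'' c'' : ℚ, b'' ^ 2 = a ^ 2 - 1 ∧ c'' ^ 2 = a ^ 2 - 81 ∧
      IsSquare ((a + b'') * (a + c'')) ∧ IsSquare ((a + b'') * (a + c'') - 1) ∧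
        IsSquare ((a + b'') * (a + c'') - 81) := by
    intro b' c' hb' hc' h1 h2
    obtain ⟨hne, hcurve⟩ := key b' c' hb' hc'
    exact ⟨b', c', hb', hc', h1, h2, x015_third_square hne hcurve h1 h2⟩
  obtain ⟨hne, hcurve⟩ := key b c hb hc
  obtain ⟨⟨ρ, hρ⟩, d, hd, τ, hτ⟩ := x015_selmer_rat hne hcurve
  have hρ0 : ρ ≠ 0 := by
    rintro rfl
    apply hne
    rw [hρ]; ring
  rcases hd with rfl | rfl | rfl | rfl
  · exact third b c hb hc ⟨ρ, hρ⟩ ⟨τ, by rw [← hτ]; ring⟩
  · refine third (-b) (-c) (by rw [← hb]; ring) (by rw [← hc]; ring) ⟨9 / ρ, ?_⟩ ⟨(a - b) * τ, ?_⟩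
    · grind
    · grind
  · refine third b (-c) hb (by rw [← hc]; ring) ⟨ρ * (a - c) / 9, ?_⟩ ⟨τ * (b - c) / 20, ?_⟩
    · grind
    · grind
  · refine third (-b) c (by rw [← hb]; ring) hc ⟨ρ * (a - b), ?_⟩
      ⟨(a - b) * (b - c) * τ / 20, ?_⟩
    · grind
    · grind

end Fermat.Agent.S51
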