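import Fermat.Agent.S51.X015Descent

set_option autoImplicit false

namespace Fermat.Agent.S51

/-- A rational number whose square is an integer is an integer. -/
theorem x015_int_of_sq_int {T : ℚ} {z : ℤ} (h : T ^ 2 = z) : ∃ m : ℤ, T = m ∧ m ^ 2 = z := by
  have hs : IsSquare ((z : ℤ) : ℚ) := ⟨T, by rw [← h]; ring⟩
  rw [Rat.isSquare_intCast_iff] at hs
  obtain ⟨m, hm⟩ := hs
  have h2 : T ^ 2 = (m : ℚ) ^ 2 := by rw [h, hm]; push_cast; ring
  rcases sq_eq_sq_iff_eq_or_eq_neg.mp h2 with h3 | h3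
  · exact ⟨m, h3, by rw [hm]; ring⟩
  · exact ⟨-m, by rw [h3]; push_cast; ring, by rw [hm]; ring⟩

/-- Infinite descent: there are no coprime integers `u, w` (`w > 0`) with `u² - w²` and
`u² - 81 w²` both squares. -/
theorem x015_descent_aux : ∀ n : ℕ, ∀ u w v t : ℤ, u.natAbs = n → 0 < w → IsCoprime u w →
    v ^ 2 = u ^ 2 - w ^ 2 → t ^ 2 = u ^ 2 - 81 * w ^ 2 → False := by
  intro n
  induction n using Nat.strong_induction_on with
  | _ n ih =>
    intro u w v t hn hw hcop hv ht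
    have hwq : (w : ℚ) ≠ 0 := by exact_mod_cast hw.ne'
    have hvq : (v : ℚ) ^ 2 = (u : ℚ) ^ 2 - (w : ℚ) ^ 2 := by exact_mod_cast hv
    have htq : (t : ℚ) ^ 2 = (u : ℚ) ^ 2 - 81 * (w : ℚ) ^ 2 := by exact_mod_cast ht
    have hb : ((v : ℚ) / w) ^ 2 = ((u : ℚ) / w) ^ 2 - 1 := by
      field_simp
      linear_combination hvq
    have hc : ((t : ℚ) / w) ^ 2 = ((u : ℚ) / w) ^ 2 - 81 := by
      field_simp
      linear_combination htq
    obtain ⟨b', c', hb', hc', ⟨σ, hσ⟩, ⟨β, hβ⟩, ⟨γ, hγ⟩⟩ := x015_signs_rat hb hc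
    -- integrality of b' w and c' w
    obtain ⟨v', hv'1, hv'2⟩ := x015_int_of_sq_int (T := b' * w) (z := u ^ 2 - w ^ 2) (by
      push_cast; rw [mul_pow, hb']; field_simp)
    obtain ⟨t', ht'1, ht'2⟩ := x015_int_of_sq_int (T := c' * w) (z := u ^ 2 - 81 * w ^ 2) (by
      push_cast; rw [mul_pow, hc']; field_simp)
    have hb'w : b' = (v' : ℚ) / w := by rw [← hv'1]; field_simp
    have hc'w : c' = (t' : ℚ) / w := by rw [← ht'1]; field_simp
    have hv'q : (v' : ℚ) ^ 2 = (u : ℚ) ^ 2 - (w : ℚ) ^ 2 := by exact_mod_cast hv'2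
    have ht'q : (t' : ℚ) ^ 2 = (u : ℚ) ^ 2 - 81 * (w : ℚ) ^ 2 := by exact_mod_cast ht'2
    -- the key relation  σ² (u - v') = u + t'
    have hkey : σ * σ * ((u : ℚ) - v') = (u : ℚ) + t' := by
      rw [← hσ, hb'w, hc'w]
      field_simp
      linear_combination (-(u : ℚ) - t') * hv'q
    set u' : ℤ := σ.num with hu'
    set w' : ℤ := (σ.den : ℤ) with hw'
    have hw'0 : 0 < w' := by rw [hw']; exact_mod_cast σ.den_pos
    have hw'q : (w' : ℚ) ≠ 0 := by exact_mod_cast hw'0.ne'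
    have hσuw : σ = (u' : ℚ) / (w' : ℚ) := by
      rw [hu', hw']; push_cast; exact (Rat.num_div_den σ).symm
    have hcop' : IsCoprime u' w' := by
      rw [Int.isCoprime_iff_gcd_eq_one, hu', hw']
      exact σ.reduced
    have hkeyZ : u' ^ 2 * (u - v') = w' ^ 2 * (u + t') := by
      have : (u' : ℚ) ^ 2 * ((u : ℚ) - v') = (w' : ℚ) ^ 2 * ((u : ℚ) + t') := by
        rw [← hkey, hσuw]; field_simp
      exact_mod_cast this
    have hdvd : u' ^ 2 ∣ u + t' := by
      have h1 : u' ^ 2 ∣ w' ^ 2 * (u + t') := ⟨u - v', hkeyZ.symm⟩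
      exact (IsCoprime.pow (m := 2) (n := 2) hcop').dvd_of_dvd_mul_left h1
    -- size estimates
    have hut : (u + t') * (u - t') = 81 * w ^ 2 := by linear_combination -ht'2
    have hne : u + t' ≠ 0 := by
      intro h0
      rw [h0] at hut
      have : 0 < 81 * w ^ 2 := by positivity
      linarith
    have hlt : |t'| < |u| := by
      rw [← sq_lt_sq]
      have : 0 < 81 * w ^ 2 := by positivity
      linarith
    have hu2 : 2 ≤ |u| := by
      by_contra hcon
      push Not at hcon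
      have h1 : |u| ≤ 1 := by omega
      have h2 : u ^ 2 ≤ 1 := by
        rw [← sq_abs]; nlinarith [abs_nonneg u]
      have h3 : 81 ≤ 81 * w ^ 2 := by nlinarith
      nlinarith [sq_nonneg t']
    have hle : u' ^ 2 ≤ |u + t'| := by
      apply Int.le_of_dvd (abs_pos.mpr hne)
      exact (dvd_abs _ _).mpr hdvd
    have hsum : |u + t'| ≤ |u| + |t'| := abs_add_le u t'
    have hsq : u' ^ 2 < u ^ 2 := by
      have h1 : u' ^ 2 < 2 * |u| := by linarith
      have h2 : 2 * |u| ≤ |u| * |u| := by nlinarith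
      have h3 : |u| * |u| = u ^ 2 := by rw [← sq_abs]; ring
      linarith
    have hmeasure : u'.natAbs < n := by
      rw [← hn]
      exact Int.natAbs_lt_iff_sq_lt.mpr hsq
    -- the new solution
    obtain ⟨v'', hv''1, hv''2⟩ := x015_int_of_sq_int (T := β * w') (z := u' ^ 2 - w' ^ 2) (by
      push_cast
      have : β * β = σ * σ - 1 := by rw [← hβ, hσ]
      rw [mul_pow, pow_two β, this, hσuw]; field_simp)
    obtain ⟨t'', ht''1, ht''2⟩ := x015_int_of_sq_int (T := γ * w') (z := u' ^ 2 - 81 * w' ^ 2) (by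
      push_cast
      have : γ * γ = σ * σ - 81 := by rw [← hγ, hσ]
      rw [mul_pow, pow_two γ, this, hσuw]; field_simp)
    exact ih u'.natAbs hmeasure u' w' v'' t'' rfl hw'0 hcop' hv''2 ht''2

end Fermat.Agent.S51
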