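import Mathlib

set_option autoImplicit false

namespace Fermat.Agent.S51

/-! Local obstructions used in the 2-descent on `y^2 = x (x - 1) (x - 81)`. -/

theorem x015_sq_mod16 (c : ZMod 16) : c ^ 2 = 0 ∨ c ^ 2 = 1 ∨ c ^ 2 = 4 ∨ c ^ 2 = 9 := by
  revert c; decide

theorem x015_kill3_aux :
    ∀ a b c : ZMod 5, (3 * a ^ 2 - b ^ 2) * (a ^ 2 - 27 * b ^ 2) = c ^ 2 → a = 0 ∧ b = 0 := by
  decide

theorem x015_not_coprime_of_dvd {p k e : ℤ} (hp : ¬ IsUnit p) (hk : p ∣ k) (he : p ∣ e)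
    (hc : IsCoprime k e) : False := by
  obtain ⟨a, b, hab⟩ := hc
  apply hp
  rw [isUnit_iff_dvd_one, ← hab]
  exact dvd_add (hk.mul_left a) (he.mul_left b)

theorem x015_kill3 {k e N : ℤ} (hc : IsCoprime k e)
    (h : (3 * k ^ 2 - e ^ 2) * (k ^ 2 - 27 * e ^ 2) = N ^ 2) : False := by
  have h5 := congrArg (Int.cast : ℤ → ZMod 5) h
  push_cast at h5
  obtain ⟨hk, he⟩ := x015_kill3_aux _ _ _ h5
  rw [ZMod.intCast_zmod_eq_zero_iff_dvd] at hk he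
  exact x015_not_coprime_of_dvd (p := 5) (by decide) (by exact_mod_cast hk) (by exact_mod_cast he) hc

theorem x015_even_of_eight_mul {k : ℤ} (h : (8 : ZMod 16) * (k : ZMod 16) = 0) : (2 : ℤ) ∣ k := by
  have h' : ((8 * k : ℤ) : ZMod 16) = 0 := by push_cast; exact h
  rw [ZMod.intCast_zmod_eq_zero_iff_dvd] at h'
  have : (16 : ℤ) ∣ 8 * k := by exact_mod_cast h'
  omega

theorem x015_kill2_aux : ∀ a b : ZMod 16,
    (let f := (2 * a ^ 2 + b ^ 2) * (a ^ 2 - 40 * b ^ 2); f = 0 ∨ f = 1 ∨ f = 4 ∨ f = 9) →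
      8 * a = 0 ∧ 8 * b = 0 := by
  decide

theorem x015_killm2_aux : ∀ a b : ZMod 16,
    (let f := (b ^ 2 - 2 * a ^ 2) * (a ^ 2 + 40 * b ^ 2); f = 0 ∨ f = 1 ∨ f = 4 ∨ f = 9) →
      8 * a = 0 ∧ 8 * b = 0 := by
  decide

theorem x015_kill10_aux : ∀ a b : ZMod 16,
    (let f := (10 * a ^ 2 + b ^ 2) * (a ^ 2 - 8 * b ^ 2); f = 0 ∨ f = 1 ∨ f = 4 ∨ f = 9) →
      8 * a = 0 ∧ 8 * b = 0 := by
  decide

theorem x015_killm10_aux : ∀ a b : ZMod 16,
    (let f := (b ^ 2 - 10 * a ^ 2) * (a ^ 2 + 8 * b ^ 2); f = 0 ∨ f = 1 ∨ f = 4 ∨ f = 9) →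
      8 * a = 0 ∧ 8 * b = 0 := by
  decide

theorem x015_kill2 {k e N : ℤ} (hc : IsCoprime k e)
    (h : (2 * k ^ 2 + e ^ 2) * (k ^ 2 - 40 * e ^ 2) = N ^ 2) : False := by
  have h16 := congrArg (Int.cast : ℤ → ZMod 16) h
  push_cast at h16
  have hsq := x015_sq_mod16 (N : ZMod 16)
  rw [← h16] at hsq
  obtain ⟨hk, he⟩ := x015_kill2_aux (k : ZMod 16) (e : ZMod 16) hsq
  exact x015_not_coprime_of_dvd (p := 2) (by decide) (x015_even_of_eight_mul hk)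
    (x015_even_of_eight_mul he) hc

theorem x015_killm2 {k e N : ℤ} (hc : IsCoprime k e)
    (h : (e ^ 2 - 2 * k ^ 2) * (k ^ 2 + 40 * e ^ 2) = N ^ 2) : False := by
  have h16 := congrArg (Int.cast : ℤ → ZMod 16) h
  push_cast at h16
  have hsq := x015_sq_mod16 (N : ZMod 16)
  rw [← h16] at hsq
  obtain ⟨hk, he⟩ := x015_killm2_aux (k : ZMod 16) (e : ZMod 16) hsq
  exact x015_not_coprime_of_dvd (p := 2) (by decide) (x015_even_of_eight_mul hk)
    (x015_even_of_eight_mul he) hc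

theorem x015_kill10 {k e N : ℤ} (hc : IsCoprime k e)
    (h : (10 * k ^ 2 + e ^ 2) * (k ^ 2 - 8 * e ^ 2) = N ^ 2) : False := by
  have h16 := congrArg (Int.cast : ℤ → ZMod 16) h
  push_cast at h16
  have hsq := x015_sq_mod16 (N : ZMod 16)
  rw [← h16] at hsq
  obtain ⟨hk, he⟩ := x015_kill10_aux (k : ZMod 16) (e : ZMod 16) hsq
  exact x015_not_coprime_of_dvd (p := 2) (by decide) (x015_even_of_eight_mul hk)
    (x015_even_of_eight_mul he) hc

theorem x015_killm10 {k e N : ℤ} (hc : IsCoprime k e)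
    (h : (e ^ 2 - 10 * k ^ 2) * (k ^ 2 + 8 * e ^ 2) = N ^ 2) : False := by
  have h16 := congrArg (Int.cast : ℤ → ZMod 16) h
  push_cast at h16
  have hsq := x015_sq_mod16 (N : ZMod 16)
  rw [← h16] at hsq
  obtain ⟨hk, he⟩ := x015_killm10_aux (k : ZMod 16) (e : ZMod 16) hsq
  exact x015_not_coprime_of_dvd (p := 2) (by decide) (x015_even_of_eight_mul hk)
    (x015_even_of_eight_mul he) hc

end Fermat.Agent.S51
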