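import Fermat.Agent.S51.X015Local

set_option autoImplicit false

namespace Fermat.Agent.S51

/-- If `N ^ 2 = A * B * C` with `A` coprime to `B`, then `A` is, up to sign, `gcd A C` times a
square. -/
theorem x015_gcd_extract {A B C N : ℤ} (hA : A ≠ 0) (hAB : IsCoprime A B)
    (h : N ^ 2 = A * B * C) :
    ∃ k : ℤ, A = (Int.gcd A C : ℤ) * k ^ 2 ∨ A = -((Int.gcd A C : ℤ) * k ^ 2) := by
  have hpos : 0 < Int.gcd A C := Int.gcd_pos_of_ne_zero_left _ hA
  obtain ⟨A', C', hcop, hA', hC'⟩ := Int.exists_gcd_one hpos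
  set g : ℤ := (Int.gcd A C : ℤ) with hg
  have hg0 : g ≠ 0 := by
    rw [hg]; exact_mod_cast hpos.ne'
  have h1 : N ^ 2 = g ^ 2 * (A' * (B * C')) := by
    rw [h]; nth_rewrite 1 [hA']; nth_rewrite 1 [hC']; ring
  have hgN : g ∣ N := by
    have : g ^ 2 ∣ N ^ 2 := ⟨_, h1⟩
    exact (Int.pow_dvd_pow_iff two_ne_zero).mp this
  obtain ⟨N₁, rfl⟩ := hgN
  have h2 : A' * (B * C') = N₁ ^ 2 := by
    have h3 : g ^ 2 * (A' * (B * C')) = g ^ 2 * N₁ ^ 2 := by rw [← h1]; ring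
    exact mul_left_cancel₀ (pow_ne_zero 2 hg0) h3
  have hcop' : IsCoprime A' (B * C') := by
    refine IsCoprime.mul_right ?_ (Int.isCoprime_iff_gcd_eq_one.mpr hcop)
    rw [hA'] at hAB
    exact hAB.of_mul_left_left
  obtain ⟨k, hk | hk⟩ := Int.sq_of_isCoprime hcop' h2
  · exact ⟨k, Or.inl (by rw [hA', hk]; ring)⟩
  · exact ⟨k, Or.inr (by rw [hA', hk]; ring)⟩

theorem x015_divisors_81 {g : ℕ} (h : g ∣ 81) : g = 1 ∨ g = 3 ∨ g = 9 ∨ g = 27 ∨ g = 81 := by
  have hle : g ≤ 81 := Nat.le_of_dvd (by norm_num) h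
  interval_cases g <;> simp_all

theorem x015_divisors_80 {g : ℕ} (h : g ∣ 80) :
    g = 1 ∨ g = 2 ∨ g = 4 ∨ g = 5 ∨ g = 8 ∨ g = 10 ∨ g = 16 ∨ g = 20 ∨ g = 40 ∨ g = 80 := by
  have hle : g ≤ 80 := Nat.le_of_dvd (by norm_num) h
  interval_cases g <;> simp_all


theorem x015_sqfree_80 {g : ℕ} (h : g ∣ 80) :
    ∃ d j : ℤ, (d = 1 ∨ d = 2 ∨ d = 5 ∨ d = 10) ∧ (g : ℤ) = d * j ^ 2 := by
  rcases x015_divisors_80 h with hg | hg | hg | hg | hg | hg | hg | hg | hg | hg <;> subst hg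
  · exact ⟨1, 1, by norm_num, by norm_num⟩
  · exact ⟨2, 1, by norm_num, by norm_num⟩
  · exact ⟨1, 2, by norm_num, by norm_num⟩
  · exact ⟨5, 1, by norm_num, by norm_num⟩
  · exact ⟨2, 2, by norm_num, by norm_num⟩
  · exact ⟨10, 1, by norm_num, by norm_num⟩
  · exact ⟨1, 4, by norm_num, by norm_num⟩
  · exact ⟨5, 2, by norm_num, by norm_num⟩
  · exact ⟨10, 2, by norm_num, by norm_num⟩
  · exact ⟨5, 4, by norm_num, by norm_num⟩

/-- Integer form of the 2-Selmer computation for `y^2 = x (x - 1) (x - 81)`. -/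
theorem x015_selmer_int {r s N : ℤ} (hs : 0 < s) (hr : 0 < r) (hrs : IsCoprime r s)
    (hB0 : r - s ≠ 0) (h : N ^ 2 = s * (r * (r - s) * (r - 81 * s))) :
    (∃ e : ℤ, s = e ^ 2) ∧ (∃ k : ℤ, r = k ^ 2) ∧
      ∃ d : ℤ, (d = 1 ∨ d = -1 ∨ d = 5 ∨ d = -5) ∧ ∃ k : ℤ, r - s = d * k ^ 2 := by
  obtain ⟨a, b, hab⟩ := hrs
  have hrs : IsCoprime r s := ⟨a, b, hab⟩
  have hsB : IsCoprime s (r - s) := ⟨a + b, a, by linear_combination hab⟩
  have hsC : IsCoprime s (r - 81 * s) := ⟨81 * a + b, a, by linear_combination hab⟩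
  have hrB : IsCoprime r (r - s) := ⟨a + b, -b, by linear_combination hab⟩
  have hcop_s : IsCoprime s (r * (r - s) * (r - 81 * s)) :=
    (hrs.symm.mul_right hsB).mul_right hsC
  -- the denominator is a square
  obtain ⟨e, he | he⟩ := Int.sq_of_isCoprime hcop_s h.symm
  swap
  · exfalso; nlinarith [sq_nonneg e]
  subst he
  have he0 : e ≠ 0 := by rintro rfl; simp at hs
  have heN : e ∣ N := by
    have : e ^ 2 ∣ N ^ 2 := Dvd.intro _ h.symm
    exact (Int.pow_dvd_pow_iff two_ne_zero).mp this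
  obtain ⟨N', rfl⟩ := heN
  have hM : N' ^ 2 = r * (r - e ^ 2) * (r - 81 * e ^ 2) := by
    have h3 : e ^ 2 * N' ^ 2 = e ^ 2 * (r * (r - e ^ 2) * (r - 81 * e ^ 2)) := by
      rw [← h]; ring
    exact mul_left_cancel₀ (pow_ne_zero 2 he0) h3
  have hke : ∀ {k : ℤ} {c : ℤ}, IsCoprime (c * k ^ 2) (e ^ 2) → IsCoprime k e := by
    intro k c hc
    have h1 : IsCoprime (k ^ 2) (e ^ 2) := hc.of_mul_left_right
    exact IsCoprime.pow_iff (by norm_num) (by norm_num) |>.mp h1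
  refine ⟨⟨e, rfl⟩, ?_, ?_⟩
  · -- `r` is a square
    obtain ⟨k, hk | hk⟩ := x015_gcd_extract hr.ne' hrB hM
    swap
    · exfalso
      have : (0 : ℤ) ≤ (Int.gcd r (r - 81 * e ^ 2) : ℤ) * k ^ 2 := by positivity
      omega
    have hg81 : Int.gcd r (r - 81 * e ^ 2) ∣ 81 := by
      have h1 : (Int.gcd r (r - 81 * e ^ 2) : ℤ) ∣ r := Int.gcd_dvd_left ..
      have h2 : (Int.gcd r (r - 81 * e ^ 2) : ℤ) ∣ r - 81 * e ^ 2 := Int.gcd_dvd_right ..
      have h3 : (Int.gcd r (r - 81 * e ^ 2) : ℤ) ∣ 81 * e ^ 2 := by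
        have := dvd_sub h1 h2; simpa using this
      have h4 : IsCoprime ((Int.gcd r (r - 81 * e ^ 2) : ℤ)) (e ^ 2) :=
        hrs.of_isCoprime_of_dvd_left h1
      have h5 : (Int.gcd r (r - 81 * e ^ 2) : ℤ) ∣ 81 := h4.dvd_of_dvd_mul_right h3
      exact_mod_cast h5
    rcases x015_divisors_81 hg81 with hg | hg | hg | hg | hg <;> rw [hg] at hk <;>
      push_cast at hk
    · exact ⟨k, by rw [hk]; ring⟩
    · exfalso
      have hk0 : k ≠ 0 := by rintro rfl; simp at hk; omega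
      have hcop : IsCoprime k e := hke (c := 3) (by rw [← hk] ; exact hrs)
      have hdvd : 3 * k ∣ N' := by
        have : (3 * k) ^ 2 ∣ N' ^ 2 :=
          ⟨(3 * k ^ 2 - e ^ 2) * (k ^ 2 - 27 * e ^ 2), by rw [hM, hk]; ring⟩
        exact (Int.pow_dvd_pow_iff two_ne_zero).mp this
      obtain ⟨N'', rfl⟩ := hdvd
      refine x015_kill3 (k := k) (e := e) (N := N'') hcop ?_
      have h3 : (3 * k) ^ 2 * ((3 * k ^ 2 - e ^ 2) * (k ^ 2 - 27 * e ^ 2)) =
          (3 * k) ^ 2 * N'' ^ 2 := by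
        rw [← mul_pow, hM, hk]; ring
      exact mul_left_cancel₀ (pow_ne_zero 2 (mul_ne_zero (by norm_num) hk0)) h3
    · exact ⟨3 * k, by rw [hk]; ring⟩
    · exfalso
      have hk0 : k ≠ 0 := by rintro rfl; simp at hk; omega
      have hcop : IsCoprime (3 * k) e := by
        refine hke (c := 3) ?_
        have : (3 : ℤ) * (3 * k) ^ 2 = r := by rw [hk]; ring
        rw [this]; exact hrs
      have hdvd : 3 * (3 * k) ∣ N' := by
        have : (3 * (3 * k)) ^ 2 ∣ N' ^ 2 :=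
          ⟨(3 * (3 * k) ^ 2 - e ^ 2) * ((3 * k) ^ 2 - 27 * e ^ 2), by
            rw [hM, hk]; ring⟩
        exact (Int.pow_dvd_pow_iff two_ne_zero).mp this
      obtain ⟨N'', rfl⟩ := hdvd
      refine x015_kill3 (k := 3 * k) (e := e) (N := N'') hcop ?_
      have h3 : (3 * (3 * k)) ^ 2 * ((3 * (3 * k) ^ 2 - e ^ 2) * ((3 * k) ^ 2 - 27 * e ^ 2)) =
          (3 * (3 * k)) ^ 2 * N'' ^ 2 := by
        rw [← mul_pow, hM, hk]; ring
      exact mul_left_cancel₀ (pow_ne_zero 2 (mul_ne_zero (by norm_num)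
        (mul_ne_zero (by norm_num) hk0))) h3
    · exact ⟨9 * k, by rw [hk]; ring⟩
  · -- class of `r - s`
    have hM' : N' ^ 2 = (r - e ^ 2) * r * (r - 81 * e ^ 2) := by rw [hM]; ring
    obtain ⟨k₀, hk₀⟩ := x015_gcd_extract hB0 hrB.symm hM'
    have hg80 : Int.gcd (r - e ^ 2) (r - 81 * e ^ 2) ∣ 80 := by
      have h1 : (Int.gcd (r - e ^ 2) (r - 81 * e ^ 2) : ℤ) ∣ r - e ^ 2 := Int.gcd_dvd_left ..
      have h2 : (Int.gcd (r - e ^ 2) (r - 81 * e ^ 2) : ℤ) ∣ r - 81 * e ^ 2 :=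
        Int.gcd_dvd_right ..
      have h3 : (Int.gcd (r - e ^ 2) (r - 81 * e ^ 2) : ℤ) ∣ 80 * e ^ 2 := by
        have := dvd_sub h1 h2
        have h80 : r - e ^ 2 - (r - 81 * e ^ 2) = 80 * e ^ 2 := by ring
        rwa [h80] at this
      have h4 : IsCoprime ((Int.gcd (r - e ^ 2) (r - 81 * e ^ 2) : ℤ)) (e ^ 2) :=
        hsB.symm.of_isCoprime_of_dvd_left h1
      have h5 : (Int.gcd (r - e ^ 2) (r - 81 * e ^ 2) : ℤ) ∣ 80 := h4.dvd_of_dvd_mul_right h3
      exact_mod_cast h5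
    obtain ⟨d, j, hd, hgd⟩ := x015_sqfree_80 hg80
    rw [hgd] at hk₀
    -- normalise: `r - e^2 = ± d * k^2` with `k = j * k₀`
    obtain ⟨k, hB | hB⟩ : ∃ k : ℤ, r - e ^ 2 = d * k ^ 2 ∨ r - e ^ 2 = -(d * k ^ 2) := by
      refine ⟨j * k₀, ?_⟩
      rcases hk₀ with h | h
      · left; rw [h]; ring
      · right; rw [h]; ring
    · rcases hd with rfl | rfl | rfl | rfl
      · exact ⟨1, by norm_num, k, hB⟩
      · exfalso
        have hr' : r = 2 * k ^ 2 + e ^ 2 := by linarith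
        have hk0 : k ≠ 0 := by
          rintro rfl; apply hB0; rw [hB]; ring
        have hcop : IsCoprime k e := by
          refine hke (c := 2) ?_
          have : (2 : ℤ) * k ^ 2 = r - e ^ 2 := hB.symm
          rw [this]; exact hsB.symm
        have hdvd : 2 * k ∣ N' := by
          have : (2 * k) ^ 2 ∣ N' ^ 2 :=
            ⟨(2 * k ^ 2 + e ^ 2) * (k ^ 2 - 40 * e ^ 2), by rw [hM, hr']; ring⟩
          exact (Int.pow_dvd_pow_iff two_ne_zero).mp this
        obtain ⟨N'', rfl⟩ := hdvd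
        refine x015_kill2 (k := k) (e := e) (N := N'') hcop ?_
        have h3 : (2 * k) ^ 2 * ((2 * k ^ 2 + e ^ 2) * (k ^ 2 - 40 * e ^ 2)) = (2 * k) ^ 2 * N'' ^ 2 := by
          rw [← mul_pow, hM, hr']; ring
        exact mul_left_cancel₀ (pow_ne_zero 2 (mul_ne_zero (by norm_num) hk0)) h3
      · exact ⟨5, by norm_num, k, hB⟩
      · exfalso
        have hr' : r = 10 * k ^ 2 + e ^ 2 := by linarith
        have hk0 : k ≠ 0 := by
          rintro rfl; apply hB0; rw [hB]; ring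
        have hcop : IsCoprime k e := by
          refine hke (c := 10) ?_
          have : (10 : ℤ) * k ^ 2 = r - e ^ 2 := hB.symm
          rw [this]; exact hsB.symm
        have hdvd : 10 * k ∣ N' := by
          have : (10 * k) ^ 2 ∣ N' ^ 2 :=
            ⟨(10 * k ^ 2 + e ^ 2) * (k ^ 2 - 8 * e ^ 2), by rw [hM, hr']; ring⟩
          exact (Int.pow_dvd_pow_iff two_ne_zero).mp this
        obtain ⟨N'', rfl⟩ := hdvd
        refine x015_kill10 (k := k) (e := e) (N := N'') hcop ?_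
        have h3 : (10 * k) ^ 2 * ((10 * k ^ 2 + e ^ 2) * (k ^ 2 - 8 * e ^ 2)) = (10 * k) ^ 2 * N'' ^ 2 := by
          rw [← mul_pow, hM, hr']; ring
        exact mul_left_cancel₀ (pow_ne_zero 2 (mul_ne_zero (by norm_num) hk0)) h3
    · rcases hd with rfl | rfl | rfl | rfl
      · exact ⟨-1, by norm_num, k, by rw [hB]; ring⟩
      · exfalso
        have hr' : r = -(2 * k ^ 2) + e ^ 2 := by linarith
        have hk0 : k ≠ 0 := by
          rintro rfl; apply hB0; rw [hB]; ring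
        have hcop : IsCoprime k e := by
          refine hke (c := -2) ?_
          have : (-2 : ℤ) * k ^ 2 = r - e ^ 2 := by rw [hB]; ring
          rw [this]; exact hsB.symm
        have hdvd : 2 * k ∣ N' := by
          have : (2 * k) ^ 2 ∣ N' ^ 2 :=
            ⟨(e ^ 2 - 2 * k ^ 2) * (k ^ 2 + 40 * e ^ 2), by rw [hM, hr']; ring⟩
          exact (Int.pow_dvd_pow_iff two_ne_zero).mp this
        obtain ⟨N'', rfl⟩ := hdvd
        refine x015_killm2 (k := k) (e := e) (N := N'') hcop ?_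
        have h3 : (2 * k) ^ 2 * ((e ^ 2 - 2 * k ^ 2) * (k ^ 2 + 40 * e ^ 2)) = (2 * k) ^ 2 * N'' ^ 2 := by
          rw [← mul_pow, hM, hr']; ring
        exact mul_left_cancel₀ (pow_ne_zero 2 (mul_ne_zero (by norm_num) hk0)) h3
      · exact ⟨-5, by norm_num, k, by rw [hB]; ring⟩
      · exfalso
        have hr' : r = -(10 * k ^ 2) + e ^ 2 := by linarith
        have hk0 : k ≠ 0 := by
          rintro rfl; apply hB0; rw [hB]; ring
        have hcop : IsCoprime k e := by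
          refine hke (c := -10) ?_
          have : (-10 : ℤ) * k ^ 2 = r - e ^ 2 := by rw [hB]; ring
          rw [this]; exact hsB.symm
        have hdvd : 10 * k ∣ N' := by
          have : (10 * k) ^ 2 ∣ N' ^ 2 :=
            ⟨(e ^ 2 - 10 * k ^ 2) * (k ^ 2 + 8 * e ^ 2), by rw [hM, hr']; ring⟩
          exact (Int.pow_dvd_pow_iff two_ne_zero).mp this
        obtain ⟨N'', rfl⟩ := hdvd
        refine x015_killm10 (k := k) (e := e) (N := N'') hcop ?_
        have h3 : (10 * k) ^ 2 * ((e ^ 2 - 10 * k ^ 2) * (k ^ 2 + 8 * e ^ 2)) = (10 * k) ^ 2 * N'' ^ 2 := by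
          rw [← mul_pow, hM, hr']; ring
        exact mul_left_cancel₀ (pow_ne_zero 2 (mul_ne_zero (by norm_num) hk0)) h3

end Fermat.Agent.S51
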