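import Fermat.Agent.S51.X015Selmer

set_option autoImplicit false

namespace Fermat.Agent.S51

/-- Rational form of the 2-Selmer computation for `y^2 = x (x - 1) (x - 81)`: for a rational
point with `y ≠ 0`, `x` is a square and `x - 1` is a square up to a factor `±1, ±5`. -/
theorem x015_selmer_rat {x y : ℚ} (hy : y ≠ 0) (h : y ^ 2 = x * (x - 1) * (x - 81)) :
    IsSquare x ∧ ∃ d : ℚ, (d = 1 ∨ d = -1 ∨ d = 5 ∨ d = -5) ∧ IsSquare (d * (x - 1)) := by
  have hy2 : 0 < y ^ 2 := by positivity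
  have hx0 : 0 < x := by
    by_contra hx
    push Not at hx
    have h1 : 0 ≤ x * (x - 1) := mul_nonneg_of_nonpos_of_nonpos hx (by linarith)
    have h2 : x * (x - 1) * (x - 81) ≤ 0 := mul_nonpos_of_nonneg_of_nonpos h1 (by linarith)
    linarith
  have hx1 : x ≠ 1 := by
    rintro rfl
    apply hy
    have : y ^ 2 = 0 := by rw [h]; ring
    exact pow_eq_zero_iff (two_ne_zero) |>.mp this
  set r : ℤ := x.num with hr
  set s : ℤ := (x.den : ℤ) with hs
  have hs0 : 0 < s := by rw [hs]; exact_mod_cast x.den_pos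
  have hr0 : 0 < r := Rat.num_pos.mpr hx0
  have hxrs : x = (r : ℚ) / (s : ℚ) := by
    rw [hr, hs]; push_cast; exact (Rat.num_div_den x).symm
  have hsq : (s : ℚ) ≠ 0 := by exact_mod_cast hs0.ne'
  have hcop : IsCoprime r s := by
    rw [Int.isCoprime_iff_gcd_eq_one, hr, hs]
    exact x.reduced
  have hB0 : r - s ≠ 0 := by
    intro hrs0
    apply hx1
    rw [hxrs]
    have : (r : ℚ) = s := by exact_mod_cast sub_eq_zero.mp hrs0
    rw [this, div_self hsq]
  -- the integer equation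
  have hZ : IsSquare (((s * (r * (r - s) * (r - 81 * s)) : ℤ)) : ℚ) := by
    refine ⟨y * s ^ 2, ?_⟩
    push_cast
    have : y * (s : ℚ) ^ 2 * (y * (s : ℚ) ^ 2) = y ^ 2 * (s : ℚ) ^ 4 := by ring
    rw [this, h, hxrs]
    field_simp
  rw [Rat.isSquare_intCast_iff] at hZ
  obtain ⟨N, hN⟩ := hZ
  have hN' : N ^ 2 = s * (r * (r - s) * (r - 81 * s)) := by rw [hN]; ring
  obtain ⟨⟨e, he⟩, ⟨k, hk⟩, d, hd, k', hk'⟩ := x015_selmer_int hs0 hr0 hcop hB0 hN'
  have he0 : (e : ℚ) ≠ 0 := by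
    intro h0
    have : e = 0 := by exact_mod_cast h0
    rw [this] at he; simp at he; omega
  refine ⟨⟨(k : ℚ) / e, ?_⟩, (d : ℚ), ?_, ⟨(d : ℚ) * k' / e, ?_⟩⟩
  · rw [hxrs, hk, he]; push_cast; field_simp
  · rcases hd with rfl | rfl | rfl | rfl <;> simp
  · have hx1' : x - 1 = ((r - s : ℤ) : ℚ) / (s : ℚ) := by
      rw [hxrs]; push_cast; field_simp
    rw [hx1', hk', he]; push_cast; field_simp

end Fermat.Agent.S51
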